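/-
Auto A1: transfers along representatives for a group `G` and an overgroup `G'` with `Δ = G'/G`:
compatibility with restriction, diamonds, commutation, and descent of invariant classes.
-/
import Fermat.Agent.Auto.Diamond
import Fermat.Agent.DS.Reps

set_option autoImplicit false
set_option linter.unusedSectionVars false

noncomputable section

namespace Fermat.Agent.Auto

open Fermat.Agent.GalRep (IMat)
open Fermat.Agent.DS (IsReps)
open scoped MatrixGroups

variable {ι : Type} [Fintype ι] {β : ι → IMat} {G G' : Subgroup SL(2, ℤ)}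
  {A : Type} [AddCommGroup A]

section Linear

variable (h : IsReps G β) (R : Type) [Ring R] [Module R A]

/-- The transfer as a linear map. -/
def trLin : Module.End R (Additive G →+ A) where
  toFun f := h.transfer f
  map_add' := map_add h.transfer
  map_smul' r f := h.transfer_comp (DistribSMul.toAddMonoidHom A r) f

theorem trLin_apply (f : Additive G →+ A) : trLin h R f = h.transfer f := rfl

end Linear

/-- Changing the representatives by elements of the group does not change the transfer. -/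
theorem transfer_congr {ι' : Type} [Fintype ι'] {β' : ι' → IMat} (h : IsReps G β)
    (h' : IsReps G β') (e : ι ≃ ι') (u : ι → G)
    (hu : ∀ i, β i = ((u i : SL(2, ℤ)) : IMat) * β' (e i)) (f : Additive G →+ A) :
    h.transfer f = h'.transfer f := by
  refine AddMonoidHom.ext fun x => ?_
  obtain ⟨γ, rfl⟩ := Additive.ofMul.surjective x
  rw [h.transfer_apply, h'.transfer_apply]
  set j : ι → ι := fun i => e.symm (h'.idx γ (e i))
  have hco : ∀ i, h.idx γ i = j i ∧
      h.coef γ i = u i * h'.coef γ (e i) * (u (j i))⁻¹ := fun i => h.unique (by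
    rw [hu i, mul_assoc, h'.spec, hu (j i), show e (j i) = h'.idx γ (e i) from e.apply_symm_apply _,
      ← mul_assoc, ← mul_assoc, ← Matrix.SpecialLinearGroup.coe_mul,
      ← Matrix.SpecialLinearGroup.coe_mul, Subgroup.coe_mul, Subgroup.coe_mul, Subgroup.coe_inv,
      inv_mul_cancel_right])
  simp only [(hco _).2, ofMul_mul, ofMul_inv, map_add, map_neg, Finset.sum_add_distrib,
    Finset.sum_neg_distrib]
  rw [Equiv.sum_comp e (fun i => f (.ofMul (h'.coef γ i))),
    show ∑ i, f (.ofMul (u (j i))) = ∑ i, f (.ofMul (u i)) from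
      Equiv.sum_comp ((e.trans (h'.perm γ)).trans e.symm) fun i => f (.ofMul (u i))]
  abel

variable {Δ : Type} [CommGroup Δ] (P : LevQuot G G' Δ) (h : IsReps G β) (h' : IsReps G' β)

include h in
theorem coef_incl (γ : G) (i : ι) :
    h'.idx (Subgroup.inclusion P.le γ) i = h.idx γ i ∧
      h'.coef (Subgroup.inclusion P.le γ) i = Subgroup.inclusion P.le (h.coef γ i) :=
  h'.unique (h.spec γ i)

variable (R : Type) [Ring R] [Module R A]

/-- Transfers commute with restriction. -/
theorem res_transfer (f : Additive G' →+ A) :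
    P.res R (h'.transfer f) = h.transfer (P.res R f) := by
  refine AddMonoidHom.ext fun x => ?_
  obtain ⟨γ, rfl⟩ := Additive.ofMul.surjective x
  rw [LevQuot.res_apply, h'.transfer_apply, h.transfer_apply]
  exact Finset.sum_congr rfl fun i _ => by rw [(coef_incl P h h' γ i).2, LevQuot.res_apply]

variable (hcl : ∀ (γ : G') (i : ι), P.toHom (h'.coef γ i) = P.toHom γ)

include h' hcl in
/-- Transfers commute with the diamonds. -/
theorem transfer_dia (u : Δ) (f : Additive G →+ A) :
    h.transfer (P.dia R u f) = P.dia R u (h.transfer f) := by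
  refine AddMonoidHom.ext fun x => ?_
  obtain ⟨γ, rfl⟩ := Additive.ofMul.surjective x
  rw [h.transfer_apply, LevQuot.dia_apply, h.transfer_apply]
  set s := P.sec u
  set γ' := Subgroup.inclusion P.le γ
  set F : G → A := fun g => f (.ofMul (P.conj s g))
  have hFmul : ∀ a b, F (a * b) = F a + F b := fun a b => by
    show f (.ofMul (P.conj s (a * b))) = _
    rw [map_mul, ofMul_mul, map_add]
  have hFinv : ∀ a, F a⁻¹ = -F a := fun a => by
    show f (.ofMul (P.conj s a⁻¹)) = _
    rw [map_inv, ofMul_inv, map_neg]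
  have hg : ∀ i, ((s * h'.coef s⁻¹ i : G') : SL(2, ℤ)) ∈ G := fun i =>
    (P.ker_iff _).mp (by rw [map_mul, hcl, map_inv, mul_inv_cancel])
  set g : ι → G := fun i => ⟨_, hg i⟩
  set k : ι → ι := fun i => h'.idx s (h'.idx γ' (h'.idx s⁻¹ i))
  have key : ∀ i, f (.ofMul (h.coef (P.conj s γ) i)) =
      F (g i) + F (h.coef γ (h'.idx s⁻¹ i)) - F (g (k i)) := by
    intro i
    have e1 : h'.coef (s⁻¹ * γ' * s) i =
        h'.coef s⁻¹ i * h'.coef γ' (h'.idx s⁻¹ i) * (h'.coef s⁻¹ (k i))⁻¹ := by
      rw [mul_assoc s⁻¹, (h'.idx_mul s⁻¹ (γ' * s) i).2, (h'.idx_mul γ' s _).2, mul_assoc]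
      congr 2
      refine eq_inv_of_mul_eq_one_left ?_
      rw [← (h'.idx_mul s s⁻¹ _).2, mul_inv_cancel, (h'.idx_one _).2]
    have e2 : h.coef (P.conj s γ) i = P.conj s (g i * h.coef γ (h'.idx s⁻¹ i) * (g (k i))⁻¹) := by
      refine Subgroup.inclusion_injective P.le ?_
      rw [← (coef_incl P h h' (P.conj s γ) i).2,
        show Subgroup.inclusion P.le (P.conj s γ) = s⁻¹ * γ' * s from Subtype.ext rfl, e1,
        (coef_incl P h h' γ _).2]
      refine Subtype.ext ?_
      simp only [LevQuot.conj, MonoidHom.mk'_apply, g, Subgroup.coe_mul, Subgroup.coe_inv,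
        Subgroup.coe_inclusion]
      group
    rw [e2]
    show F _ = _
    rw [hFmul, hFmul, hFinv, sub_eq_add_neg]
  rw [Finset.sum_congr rfl fun i _ => key i, Finset.sum_sub_distrib, Finset.sum_add_distrib,
    show ∑ x, F (h.coef γ (h'.idx s⁻¹ x)) = ∑ i, F (h.coef γ i) from
      Equiv.sum_comp (h'.perm s⁻¹) fun i => F (h.coef γ i),
    show ∑ i, F (g (k i)) = ∑ i, F (g i) from
      Equiv.sum_comp ((h'.perm s⁻¹).trans ((h'.perm γ').trans (h'.perm s))) fun i => F (g i)]
  show ∑ i, f (.ofMul (P.conj (P.sec u) (h.coef γ i))) = _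
  abel

include h' hcl in
/-- An invariant class becomes, after subtracting its multiple by the degree from its transfer, a
restriction. -/
theorem exists_res_eq_transfer_sub (f : Additive G →+ A) (hf : ∀ u, P.dia R u f = f) :
    ∃ φ : Additive G' →+ A, P.res R φ = h.transfer f - Fintype.card ι • f := by
  have hinv : ∀ (x : G') (g : G), f (.ofMul (P.conj x g)) = f (.ofMul g) := fun x g => by
    rw [P.apply_conj_eq f (h' := P.sec (P.toHom x)) (P.toHom_sec _).symm, ← P.dia_apply R, hf]
  set r : G' → G' := fun x => P.sec (P.toHom x) * (P.sec 1)⁻¹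
  have hr : ∀ x, ((r x)⁻¹ * x : G').1 ∈ G := fun x => (P.ker_iff _).mp (by
    simp [r, P.toHom_sec])
  obtain ⟨F, hFdef⟩ : ∃ F : G' → A, ∀ x, F x = f (.ofMul ⟨_, hr x⟩) := ⟨_, fun _ => rfl⟩
  have hrG : ∀ x (g : G), r (x * Subgroup.inclusion P.le g) = r x := fun x g => by
    simp only [r]
    rw [map_mul, (P.ker_iff (Subgroup.inclusion P.le g)).mpr g.2, mul_one]
  have hF : ∀ x (g : G), F (x * Subgroup.inclusion P.le g) = F x + f (.ofMul g) := fun x g => by
    rw [hFdef, hFdef, ← map_add, ← ofMul_mul]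
    congr 2
    refine Subtype.ext ?_
    simp [hrG x g, mul_assoc]
  have hdec : ∀ x, ∃ g : G, x = P.sec (P.toHom x) * Subgroup.inclusion P.le g := fun x =>
    ⟨⟨_, (P.ker_iff ((P.sec (P.toHom x))⁻¹ * x)).mp (by simp [P.toHom_sec])⟩,
      Subtype.ext (by simp)⟩
  obtain ⟨κ, hκdef⟩ : ∃ κ : Δ → Δ → A, ∀ u v, κ u v = F (P.sec u) + F (P.sec v) - F (P.sec u * P.sec v) :=
    ⟨_, fun _ _ => rfl⟩
  have hκ : ∀ x y, F (x * y) = F x + F y - κ (P.toHom x) (P.toHom y) := fun x y => by
    obtain ⟨g, hg⟩ := hdec x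
    obtain ⟨k, hk⟩ := hdec y
    have e : x * y = P.sec (P.toHom x) * P.sec (P.toHom y) *
        Subgroup.inclusion P.le (P.conj (P.sec (P.toHom y)) g * k) := by
      conv_lhs => rw [hg, hk]
      refine Subtype.ext ?_
      simp only [LevQuot.conj, MonoidHom.mk'_apply, Subgroup.coe_mul, Subgroup.coe_inclusion]
      group
    rw [e, hF, ofMul_mul, map_add, hinv]
    conv_rhs => rw [hg, hk, hF, hF]
    simp only [hκdef, map_mul, P.toHom_sec, (P.ker_iff (Subgroup.inclusion P.le g)).mpr g.2,
      (P.ker_iff (Subgroup.inclusion P.le k)).mpr k.2, mul_one]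
    abel
  let φ : Additive G' →+ A := AddMonoidHom.mk'
    (fun x => ∑ i, F (h'.coef x.toMul i) - Fintype.card ι • F x.toMul) fun x y => by
      show ∑ i, F (h'.coef (x.toMul * y.toMul) i) - Fintype.card ι • F (x.toMul * y.toMul) =
        (∑ i, F (h'.coef x.toMul i) - Fintype.card ι • F x.toMul) +
          (∑ i, F (h'.coef y.toMul i) - Fintype.card ι • F y.toMul)
      simp only [(h'.idx_mul x.toMul y.toMul _).2, hκ, hcl]
      have hp : ∑ i, F (h'.coef y.toMul (h'.idx x.toMul i)) = ∑ i, F (h'.coef y.toMul i) :=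
        (Finset.sum_congr rfl fun i _ => by rw [h'.perm_apply]).trans
          (Equiv.sum_comp (h'.perm x.toMul) fun i => F (h'.coef y.toMul i))
      rw [Finset.sum_sub_distrib, Finset.sum_add_distrib, Finset.sum_const, Finset.card_univ, hp,
        smul_sub, smul_add]
      abel
  have hFG : ∀ g : G, F (Subgroup.inclusion P.le g) = f (.ofMul g) := fun g => by
    have h1 : F (1 : G') = 0 := by
      have : (⟨_, hr 1⟩ : G) = 1 := Subtype.ext (by simp [r])
      rw [hFdef, this, ofMul_one, map_zero]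
    have := hF 1 g
    rwa [one_mul, h1, zero_add] at this
  refine ⟨φ, AddMonoidHom.ext fun x => ?_⟩
  obtain ⟨γ, rfl⟩ := Additive.ofMul.surjective x
  rw [LevQuot.res_apply, AddMonoidHom.sub_apply, AddMonoidHom.smul_apply, h.transfer_apply]
  show ∑ i, F (h'.coef (Subgroup.inclusion P.le γ) i) - _ • F _ = _
  simp only [toMul_ofMul, (coef_incl P h h' γ _).2, hFG]

end Fermat.Agent.Auto
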