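/-
Auto A1: the Hecke and diamond operators on all homomorphisms out of `grp M c`.
-/
import Fermat.Agent.Auto.LatOps
import Fermat.Agent.Auto.Free.Transfer
import Fermat.Agent.DS.Ops
import Mathlib.GroupTheory.Schreier

set_option autoImplicit false
set_option linter.unusedSectionVars false
set_option linter.style.haveILetI false

noncomputable section

namespace Fermat.Agent.Auto

open CongruenceSubgroup
open Fermat.Agent.GalRep (IMat GoodPrime heckeRep det_heckeRep)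
open Fermat.Agent.GalRep.Level (IsDiamond heckeRepG det_heckeRepG)
open Fermat.Agent.DS (IsReps diaMat diaMat_mem diaMat_eleven isDiamond_diaMat_prime)
open scoped MatrixGroups

variable {M : ℕ} [NeZero M] {Δ : Type} [CommGroup Δ] {c : (ZMod M)ˣ →* Δ}

/-! ## The quotient `Δ` -/

theorem mem_grp_one {γ : SL(2, ℤ)} : γ ∈ grp M (1 : (ZMod M)ˣ →* Δ) ↔ γ ∈ Gamma0 M :=
  ⟨fun h => h.1, fun h => ⟨h, fun _ _ => rfl⟩⟩

variable (c) in
/-- `Γ₀(M) → Δ`, `γ ↦ c(d_γ)⁻¹`. -/
def classHom : grp M (1 : (ZMod M)ˣ →* Δ) →* Δ :=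
  MonoidHom.mk' (fun γ => (c (elevenUnit γ.2.1))⁻¹) fun a b => by
    rw [show elevenUnit (a * b).2.1 = elevenUnit (mul_mem a.2.1 b.2.1) from rfl,
      elevenUnit_mul a.2.1 b.2.1, map_mul, mul_inv]

theorem classHom_apply (γ : grp M (1 : (ZMod M)ˣ →* Δ)) :
    classHom c γ = (c (elevenUnit γ.2.1))⁻¹ := rfl

/-- The quotient datum of `grp M c ≤ Γ₀(M)`. -/
def grpQuot (hc : Function.Surjective c) :
    LevQuot (grp M c) (grp M (1 : (ZMod M)ˣ →* Δ)) Δ where
  toHom := classHom c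
  le _ h := mem_grp_one.mpr h.1
  surj x := by
    obtain ⟨d, hd⟩ := hc x⁻¹
    refine ⟨⟨diaMat d, mem_grp_one.mpr (diaMat_mem d)⟩, ?_⟩
    rw [classHom_apply, inv_eq_iff_eq_inv, ← hd]
    exact congrArg c (Units.ext (diaMat_eleven d))
  ker_iff γ := by
    rw [classHom_apply, inv_eq_one]
    exact ⟨fun h => ⟨γ.2.1, fun u hu => by rw [show u = elevenUnit γ.2.1 from Units.ext hu, h]⟩,
      fun h => h.2 _ rfl⟩

theorem neg_one_mem_grp {p : ℕ} [Fact p.Prime] (hp : p ≠ 2) (hΔ : IsPGroup p Δ) :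
    (-1 : SL(2, ℤ)) ∈ grp M c := by
  refine ⟨Gamma0_mem.mpr (by simp), fun u hu => ?_⟩
  have hu2 : u ^ 2 = 1 := Units.ext (by rw [Units.val_pow_eq_pow_val, hu]; simp)
  obtain ⟨k, hk⟩ := hΔ (c u)
  have h2 : c u ^ 2 = 1 := by rw [← map_pow, hu2, map_one]
  have hg := (pow_gcd_eq_one (a := c u)).mpr ⟨hk, h2⟩
  rwa [Nat.Coprime.gcd_eq_one (((Nat.coprime_primes (Fact.out : p.Prime) Nat.prime_two).mpr
    hp).pow_left k), pow_one] at hg

/-! ## Homomorphisms into a finite module -/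

instance fg_grp : Group.FG (grp M c) :=
  haveI : Group.FG SL(2, ℤ) := Group.fg_iff.mpr
    ⟨{ModularGroup.S, ModularGroup.T}, SpecialLinearGroup.SL2Z_generators, Set.toFinite _⟩
  haveI := finiteIndex_grp (M := M) (c := c)
  inferInstance

variable {R : Type} [CommRing R] {A : Type} [AddCommGroup A] [Module R A]

instance finite_hom [IsNoetherianRing R] [Module.Finite R A] :
    Module.Finite R (Additive (grp M c) →+ A) := by
  obtain ⟨s, hs⟩ := (Group.fg_def.mp (inferInstance : Group.FG (grp M c)))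
  let ev : (Additive (grp M c) →+ A) →ₗ[R] (s → A) :=
    { toFun := fun f x => f (.ofMul x.1)
      map_add' := fun _ _ => rfl
      map_smul' := fun _ _ => rfl }
  refine Module.Finite.of_injective ev fun f g h => ?_
  have : MonoidHom.eqLocus f.toMultiplicativeRight g.toMultiplicativeRight = ⊤ := by
    rw [eq_top_iff, ← hs, Subgroup.closure_le]
    exact fun x hx => congrFun h ⟨x, hx⟩
  refine AddMonoidHom.ext fun x => ?_
  exact (show x.toMul ∈ MonoidHom.eqLocus f.toMultiplicativeRight g.toMultiplicativeRight from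
    this ▸ Subgroup.mem_top _)

instance isTorsionFree_hom [IsDomain R] [Module.IsTorsionFree R A] :
    Module.IsTorsionFree R (Additive (grp M c) →+ A) := by
  exact ⟨fun r hr f g h => AddMonoidHom.ext fun x =>
    (hr.isSMulRegular (M := A)) (DFunLike.congr_fun h x)⟩

/-! ## The representatives modulo the level -/

section Hecke

variable {ℓ : ℕ} {Rm : SL(2, ℤ)}

theorem coef_class (hℓ : ℓ.Prime) (hℓM : ¬ ℓ ∣ M) (hR : IsDiamond M ℓ Rm) (hc : Function.Surjective c)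
    (γ : grp M (1 : (ZMod M)ˣ →* Δ)) (i : Option (Fin ℓ)) :
    (grpQuot hc).toHom ((isReps_grp (c := (1 : (ZMod M)ˣ →* Δ)) hℓ hℓM hR).coef γ i) =
      (grpQuot hc).toHom γ := by
  obtain ⟨j, g, h0, h1, h⟩ := DS.exists_step_hecke hℓ hℓM hR γ.2.1 i
  rw [((isReps_grp (c := (1 : (ZMod M)ˣ →* Δ)) hℓ hℓM hR).unique
    (g := ⟨g, mem_grp_one.mpr h0⟩) h).2]
  show (c _)⁻¹ = (c _)⁻¹
  exact congrArg (fun u => (c u)⁻¹) (Units.ext h1)

end Hecke

/-- The diamond representative of a good prime. -/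
theorem gpDia (ℓ : GoodPrime M) : IsDiamond M ((ℓ : Nat.Primes) : ℕ)
    (diaMat (ZMod.unitOfCoprime _ ((ℓ.1.2.coprime_iff_not_dvd).2 ℓ.2))) :=
  isDiamond_diaMat_prime _

variable (R A c) in
/-- `T_ℓ` on all homomorphisms. -/
def homT (ℓ : GoodPrime M) : Module.End R (Additive (grp M c) →+ A) :=
  trLin (isReps_grp (c := c) ℓ.1.2 ℓ.2 (gpDia ℓ)) R

variable (R A) in
theorem homT_commute (ℓ m : GoodPrime M) : Commute (homT c R A ℓ) (homT c R A m) := by
  rcases eq_or_ne ℓ m with rfl | h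
  · exact Commute.refl _
  exact LinearMap.ext fun f => transfer_comm_grp ℓ.1.2 ℓ.2 (gpDia ℓ) m.1.2 m.2 (gpDia m)
    (fun e => h (Subtype.ext (Subtype.ext e))) f

theorem homT_dia (hc : Function.Surjective c) (ℓ : GoodPrime M) (u : Δ) :
    Commute ((grpQuot hc).dia R u) (homT c R A ℓ) :=
  LinearMap.ext fun f =>
    (transfer_dia (grpQuot hc) _ (isReps_grp ℓ.1.2 ℓ.2 (gpDia ℓ)) R
      (coef_class ℓ.1.2 ℓ.2 (gpDia ℓ) hc) u f).symm

theorem res_homT (hc : Function.Surjective c) (ℓ : GoodPrime M)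
    (f : Additive (grp M (1 : (ZMod M)ˣ →* Δ)) →+ A) :
    (grpQuot hc).res R (homT (1 : (ZMod M)ˣ →* Δ) R A ℓ f) =
      homT c R A ℓ ((grpQuot hc).res R f) :=
  res_transfer (grpQuot hc) _ _ R f

theorem homT_comp {B : Type} [AddCommGroup B] [Module R B] (φ : A →+ B) (ℓ : GoodPrime M)
    (f : Additive (grp M c) →+ A) : homT c R B ℓ (φ.comp f) = φ.comp (homT c R A ℓ f) :=
  IsReps.transfer_comp _ φ f

/-- An invariant class, transformed by `T_ℓ - (ℓ+1)`, descends. -/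
theorem exists_res_homT_sub (hc : Function.Surjective c) (ℓ : GoodPrime M)
    (f : Additive (grp M c) →+ A) (hf : ∀ u, (grpQuot hc).dia R u f = f) :
    ∃ φ, (grpQuot hc).res R φ = homT c R A ℓ f - (((ℓ : Nat.Primes) : ℕ) + 1) • f := by
  obtain ⟨φ, hφ⟩ := exists_res_eq_transfer_sub (grpQuot hc)
    (isReps_grp ℓ.1.2 ℓ.2 (gpDia ℓ)) _ R
    (coef_class ℓ.1.2 ℓ.2 (gpDia ℓ) hc) f hf
  refine ⟨φ, hφ.trans ?_⟩
  rw [Fintype.card_option, Fintype.card_fin]
  rfl

/-- The diamond transfer is conjugation. -/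
theorem transfer_diamond_eq (hc : Function.Surjective c) {δ : SL(2, ℤ)} (hδ : δ ∈ Gamma0 M)
    (f : Additive (grp M c) →+ A) :
    (isReps_grp_diamond (c := c) hδ).transfer f =
      (grpQuot hc).dia R (c (elevenUnit hδ)) f := by
  refine AddMonoidHom.ext fun x => ?_
  obtain ⟨γ, rfl⟩ := Additive.ofMul.surjective x
  rw [IsReps.transfer_apply, LevQuot.dia_apply, Fintype.sum_unique]
  rw [((isReps_grp_diamond (c := c) hδ).unique (j := ()) (g := ⟨δ * γ * δ⁻¹, conj_mem_grp hδ γ.2⟩)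
    (by rw [← Matrix.SpecialLinearGroup.coe_mul, ← Matrix.SpecialLinearGroup.coe_mul]; simp)).2]
  rw [(grpQuot hc).apply_conj_eq f (h' := ⟨δ, mem_grp_one.mpr hδ⟩⁻¹)]
  · congr 2
    exact Subtype.ext (by simp [LevQuot.conj])
  · rw [LevQuot.toHom_sec, map_inv]
    show _ = ((c (elevenUnit hδ))⁻¹)⁻¹
    rw [inv_inv]

end Fermat.Agent.Auto
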