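/-
Auto A1: at a prime `ℓ ≡ 1 (mod M)` the operator `T_ℓ - (ℓ+1)` sends every homomorphism out of
`grp M c` to a parabolic one.
-/
import Fermat.Agent.Auto.Free.Ops
import Fermat.Agent.Raise.Parabolic

set_option autoImplicit false
set_option linter.unusedSectionVars false

noncomputable section

namespace Fermat.Agent.Auto

open CongruenceSubgroup
open Fermat.Agent.GalRep (IMat GoodPrime GoodIndex heckeRep trCoef trSpec det_heckeRep heckeRep_one_zero)
open Fermat.Agent.GalRep.Level (IsDiamond heckeRepG det_heckeRepG)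
open Fermat.Agent.DS (IsReps diaMat diaMat_mem exists_twist)
open Fermat.Agent.Raise (ZMat ZVec vdet exists_sl_col det_two coe_inv_eq mem_gamma0_iff_dvd repDiv
  sum_repDiv_sq sl_mul_upper)
open scoped MatrixGroups

/-- A Hecke representative moves a cusp within its `Γ₁(N)`-orbit when `ℓ ≡ 1 (mod N)`. -/
theorem exists_gamma1_move {N ℓ : ℕ} (hℓ : ℓ.Prime) (hℓ1 : (N : ℤ) ∣ (ℓ : ℤ) - 1)
    (α : SL(2, ℤ)) (i : Option (Fin ℓ)) :
    ∃ γ ∈ Gamma1 N, vdet ((heckeRep ℓ i).mulVec ((α : ZMat).mulVec ![1, 0]))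
      ((γ : ZMat).mulVec ((α : ZMat).mulVec ![1, 0])) = 0 := by
  have hcol : (α : ZMat).mulVec ![1, 0] = ![(α : ZMat) 0 0, (α : ZMat) 1 0] := by
    ext j; fin_cases j <;> simp
  rw [hcol]
  set a := (α : ZMat) 0 0
  set c := (α : ZMat) 1 0
  set B := (α : ZMat) 0 1
  set d := (α : ZMat) 1 1
  have hdet : a * d - B * c = 1 := det_two α
  obtain ⟨r00, r01, r11, hr, hrℓ, hm0, hm1⟩ : ∃ r00 r01 r11 : ℤ,
      (heckeRep ℓ i = !![r00, r01; 0, r11]) ∧ r00 * r11 = ℓ ∧
      (N : ℤ) ∣ r00 - 1 ∧ (N : ℤ) ∣ r11 - 1 := by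
    cases i with
    | none => exact ⟨ℓ, 0, 1, rfl, mul_one _, hℓ1, by simp⟩
    | some b => exact ⟨1, b, ℓ, rfl, one_mul _, by simp, hℓ1⟩
  set c0 := r00 * a + r01 * c
  set c1 := r11 * c
  have hmv : (heckeRep ℓ i).mulVec ![a, c] = ![c0, c1] := by
    rw [hr]; ext j; fin_cases j <;> simp [c0, c1] <;> ring
  rw [hmv]
  set h : ℤ := (Int.gcd c0 c1 : ℤ)
  have hdvd : h ∣ (ℓ : ℤ) := by
    have e : c0 * (r11 * d) - (r00 * B + r01 * d) * c1 = ℓ := by
      rw [← hrℓ]; simp only [c0, c1]; linear_combination (r00 * r11) * hdet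
    rw [← e]
    exact dvd_sub ((Int.gcd_dvd_left _ _).mul_right _) ((Int.gcd_dvd_right _ _).mul_left _)
  have hN : (N : ℤ) ∣ h - 1 := by
    rcases (Nat.dvd_prime hℓ).mp (Int.natCast_dvd_natCast.mp hdvd) with h1 | h1
    · simp [h, h1]
    · simpa [h, h1] using hℓ1
  have hpos : 0 < Int.gcd c0 c1 := Nat.pos_of_dvd_of_pos (Int.natCast_dvd_natCast.mp hdvd) hℓ.pos
  obtain ⟨a', ha'⟩ : h ∣ c0 := Int.gcd_dvd_left _ _
  obtain ⟨c', hc'⟩ : h ∣ c1 := Int.gcd_dvd_right _ _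
  have hcop : IsCoprime a' c' := by
    refine ⟨Int.gcdA c0 c1, Int.gcdB c0 c1, mul_left_cancel₀
      (Int.natCast_ne_zero.mpr hpos.ne') ?_⟩
    linear_combination -Int.gcd_eq_gcd_ab c0 c1 - Int.gcdA c0 c1 * ha' - Int.gcdB c0 c1 * hc'
  obtain ⟨α', ha2, hc2⟩ := exists_sl_col hcop
  set k : ℤ := (α' : ZMat) 0 1 * d - (α' : ZMat) 1 1 * (B + r01 * d)
  refine ⟨α' * ModularGroup.T ^ (-k) * α⁻¹, DS.mem_gamma1_of_gamma0 (mem_gamma0_iff_dvd.mpr ?_) ?_, ?_⟩
  · rw [← ZMod.intCast_zmod_eq_zero_iff_dvd] at hm0 hm1 hN ⊢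
    have e0 := congrArg (fun z : ℤ => (z : ZMod N)) ha'
    have e1 := congrArg (fun z : ℤ => (z : ZMod N)) hc'
    have e2 := congrArg (fun z : ℤ => (z : ZMod N)) hdet
    have e3 := congrArg (fun z : ℤ => (z : ZMod N)) (det_two α')
    push_cast at hm0 hm1 hN
    rw [sub_eq_zero] at hm0 hm1 hN
    simp only [c0, c1, ha2, hc2] at e0 e1 e3
    push_cast at e0 e1 e2 e3
    rw [hm0, hN, one_mul, one_mul] at e0
    rw [hm1, hN, one_mul, one_mul] at e1
    rw [Matrix.SpecialLinearGroup.coe_mul, Matrix.SpecialLinearGroup.coe_mul, coe_inv_eq,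
      ModularGroup.coe_T_zpow]
    simp only [Matrix.mul_apply, Fin.sum_univ_two, Matrix.of_apply, Matrix.cons_val', 
      Matrix.cons_val_zero, Matrix.cons_val_one, Matrix.cons_val_fin_one, hc2]
    push_cast [k]
    rw [← e0, ← e1] at e3
    rw [← e1]
    linear_combination (c : ZMod N) * ((α' : ZMat) 1 1 : ZMod N) * e2 -
      (c : ZMod N) * (d : ZMod N) * e3
  · rw [← ZMod.intCast_zmod_eq_zero_iff_dvd] at hm0 hm1 hN
    have e0 := congrArg (fun z : ℤ => (z : ZMod N)) ha'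
    have e1 := congrArg (fun z : ℤ => (z : ZMod N)) hc'
    have e2 := congrArg (fun z : ℤ => (z : ZMod N)) hdet
    have e3 := congrArg (fun z : ℤ => (z : ZMod N)) (det_two α')
    push_cast at hm0 hm1 hN
    rw [sub_eq_zero] at hm0 hm1 hN
    simp only [c0, c1, ha2, hc2] at e0 e1 e3
    push_cast at e0 e1 e2 e3
    rw [hm0, hN, one_mul, one_mul] at e0
    rw [hm1, hN, one_mul, one_mul] at e1
    rw [Matrix.SpecialLinearGroup.coe_mul, Matrix.SpecialLinearGroup.coe_mul, coe_inv_eq,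
      ModularGroup.coe_T_zpow]
    simp only [Matrix.mul_apply, Fin.sum_univ_two, Matrix.of_apply, Matrix.cons_val', 
      Matrix.cons_val_zero, Matrix.cons_val_one, Matrix.cons_val_fin_one, hc2]
    push_cast [k]
    rw [← e0, ← e1] at e3
    rw [← e1]
    linear_combination ((a : ZMod N) * (d : ZMod N)) * e3 +
      (1 - (a : ZMod N) * ((α' : ZMat) 1 1 : ZMod N)) * e2
  · rw [show ((α' * ModularGroup.T ^ (-k) * α⁻¹ : SL(2, ℤ)) : ZMat).mulVec ![a, c] = ![a', c'] by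
      rw [← hcol, Matrix.mulVec_mulVec, ← Matrix.SpecialLinearGroup.coe_mul, inv_mul_cancel_right,
        Matrix.SpecialLinearGroup.coe_mul, ModularGroup.coe_T_zpow]
      ext j
      fin_cases j <;> simp [Matrix.mul_apply, Fin.sum_univ_two, ha2, hc2]]
    simp [vdet, ha', hc']
    ring

variable {M : ℕ} [NeZero M] {Δ : Type} [CommGroup Δ] {c₀ : (ZMod M)ˣ →* Δ} {ℓ : ℕ}

/-- For `ℓ ≡ 1 (mod M)` the standard representatives normalise `grp M c`. -/
theorem isReps_std (hg : GoodIndex M ℓ) (hℓ1 : (M : ℤ) ∣ (ℓ : ℤ) - 1) :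
    IsReps (grp M c₀) (heckeRep ℓ) := by
  refine ⟨fun i => by rw [det_heckeRep]; exact_mod_cast hg.prime.ne_zero, fun γ i => ?_,
    fun i j g hij => ?_⟩
  · obtain ⟨j, g, h⟩ := GalRep.exists_transfer_step hg.prime hg.not_dvd ⟨γ, γ.2.1⟩ i
    refine ⟨j, ⟨g, mem_grp_of_eleven g.2 γ.2 ?_⟩, h⟩
    have h11 := congrArg (fun X : IMat => ((X 1 1 : ℤ) : ZMod M)) h
    simp only [Matrix.mul_apply, Fin.sum_univ_two, heckeRep_one_zero, zero_mul, zero_add] at h11
    push_cast at h11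
    have hl : (ℓ : ZMod M) = 1 := by
      have := (ZMod.intCast_zmod_eq_zero_iff_dvd _ _).mpr hℓ1
      push_cast at this
      exact sub_eq_zero.mp this
    have he : ∀ k, ((heckeRep ℓ k 1 1 : ℤ) : ZMod M) = 1 := fun k => by
      cases k <;> simp [heckeRep, hl]
    rw [he, he, one_mul, Gamma0_mem.1 g.2, zero_mul, zero_add, mul_one] at h11
    exact h11.symm
  · refine GalRep.heckeRep_unique hg.prime (M := 1) ?_ ((one_mul _).trans hij)
    rw [Matrix.det_one]; exact_mod_cast hg.prime.not_dvd_one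

variable {A : Type} [AddCommGroup A]

/-- At `ℓ ≡ 1 (mod M)` the two families of representatives have the same transfer. -/
theorem transfer_eq_std (hg : GoodIndex M ℓ) (hℓ1 : (M : ℤ) ∣ (ℓ : ℤ) - 1) {R : SL(2, ℤ)}
    (hR : IsDiamond M ℓ R) (v : Additive (grp M c₀) →+ A) :
    (isReps_grp hg.prime hg.not_dvd hR).transfer v = (isReps_std hg hℓ1).transfer v := by
  obtain ⟨π, u, ⟨hu0, hu1⟩, -, -, hu⟩ := exists_twist hg.prime hg.not_dvd hR
  have hl : (ℓ : ZMod M) = 1 := by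
    have := (ZMod.intCast_zmod_eq_zero_iff_dvd _ _).mpr hℓ1
    push_cast at this
    exact sub_eq_zero.mp this
  have hmem : ∀ i, u i ∈ grp M c₀ := fun i => by
    cases i with
    | none =>
      rw [hu0]
      exact gamma1_le_grp (DS.mem_gamma1_of_gamma0 (DS.diamond_mem_gamma0 hR)
        (by rw [hR.2.2.2, hl]))
    | some b => exact gamma1_le_grp (hu1 b)
  exact transfer_congr _ _ π.optionCongr (fun i => ⟨u i, hmem i⟩) hu v

set_option maxHeartbeats 1000000 in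
/-- The eigen equation at an upper unipotent element conjugate into `grp M c`. -/
theorem transfer_parabolic (hg : GoodIndex M ℓ) (hℓ1 : (M : ℤ) ∣ (ℓ : ℤ) - 1)
    (v : Additive (grp M c₀) →+ A) (α : SL(2, ℤ)) (k : ℤ)
    (hγ : α * ModularGroup.T ^ k * α⁻¹ ∈ grp M c₀) :
    (isReps_std hg hℓ1).transfer v (Additive.ofMul ((⟨_, hγ⟩ : grp M c₀) ^ ℓ)) =
      ((ℓ : ℤ) ^ 2 + ℓ) • v (Additive.ofMul ⟨_, hγ⟩) := by
  classical
  set γ : grp M c₀ := ⟨_, hγ⟩ with hγdef
  set a := (α : ZMat) 0 0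
  set c := (α : ZMat) 1 0
  have hco : IsCoprime a c := by
    refine ⟨(α : ZMat) 1 1, -(α : ZMat) 0 1, ?_⟩
    linear_combination det_two α
  have hcol : (α : ZMat).mulVec ![1, 0] = ![a, c] := by
    ext j; fin_cases j <;> simp [a, c]
  have key : ∀ i, v (Additive.ofMul ((isReps_std hg hℓ1).coef (γ ^ ℓ) i)) =
      (repDiv ℓ ![a, c] i ^ 2) • v (Additive.ofMul γ) := by
    intro i
    obtain ⟨η, hη, hmove⟩ := exists_gamma1_move hg.prime hℓ1 α i
    rw [hcol] at hmove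
    set B : ZMat := ((η * α)⁻¹ : SL(2, ℤ)) * (heckeRep ℓ i * (α : ZMat)) with hBdef
    have hηα : ((η * α : SL(2, ℤ)) : ZMat) * B = heckeRep ℓ i * (α : ZMat) := by
      rw [hBdef, ← mul_assoc, ← Matrix.SpecialLinearGroup.coe_mul, mul_inv_cancel,
        Matrix.SpecialLinearGroup.coe_one, one_mul]
    have hB10 : B 1 0 = 0 := by
      simp only [vdet, Matrix.mulVec, dotProduct, Fin.sum_univ_two, Matrix.cons_val_zero,
        Matrix.cons_val_one, Matrix.cons_val_fin_one] at hmove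
      simp only [hBdef, coe_inv_eq, Matrix.SpecialLinearGroup.coe_mul, Matrix.mul_apply,
        Fin.sum_univ_two, Matrix.of_apply, Matrix.cons_val', Matrix.cons_val_zero,
        Matrix.cons_val_one, Matrix.cons_val_fin_one]
      simp only [a, c] at hmove
      linear_combination -hmove
    have hBdet : B.det = ℓ := by
      rw [hBdef, Matrix.det_mul, Matrix.det_mul, det_heckeRep, Matrix.SpecialLinearGroup.det_coe,
        Matrix.SpecialLinearGroup.det_coe, one_mul, mul_one]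
    have hsy : B 0 0 * B 1 1 = ℓ := by
      rw [Matrix.det_fin_two, hB10, mul_zero, sub_zero] at hBdet
      exact hBdet
    have hs : B 0 0 ^ 2 = repDiv ℓ ![a, c] i ^ 2 := by
      set w := (heckeRep ℓ i).mulVec ![a, c]
      have e : ∀ r, w r = ((η * α : SL(2, ℤ)) : ZMat) r 0 * B 0 0 := fun r => by
        have e1 := congrFun (congrFun hηα r) 0
        rw [Matrix.mul_apply, Fin.sum_univ_two, hB10, mul_zero, add_zero] at e1
        rw [e1, Matrix.mul_apply, Fin.sum_univ_two]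
        fin_cases r <;> simp [w, a, c]
      have hpr := Nat.prime_iff_prime_int.mp hg.prime
      rcases (Nat.dvd_prime hg.prime).mp
          (Int.natAbs_dvd_natAbs.mpr (show B 0 0 ∣ (ℓ : ℤ) from ⟨B 1 1, hsy.symm⟩)) with h1 | h1
      · have h1' : B 0 0 ^ 2 = 1 := by
          rw [← Int.natAbs_sq, h1]; norm_num
        rw [h1', repDiv, if_neg, one_pow]
        rintro ⟨d0, d1⟩
        have hunit : IsUnit (B 0 0) := Int.isUnit_iff_natAbs_eq.mpr h1
        change (ℓ : ℤ) ∣ w 0 at d0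
        change (ℓ : ℤ) ∣ w 1 at d1
        rw [e, hunit.dvd_mul_right] at d0 d1
        have := det_two (η * α)
        exact hpr.not_dvd_one (this ▸ dvd_sub (d0.mul_right _) (d1.mul_left _))
      · have hd : ∀ r, (ℓ : ℤ) ∣ w r := fun r => by
          rw [e]; exact (Int.natCast_dvd.mpr h1.symm.dvd).mul_left _
        rw [repDiv, if_pos ⟨hd 0, hd 1⟩, ← Int.natAbs_sq, h1]
    have hm : B 0 0 ^ 2 * k * B 1 1 = B 0 0 * (k * ℓ) := by
      linear_combination (B 0 0 * k) * hsy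
    set g : grp M c₀ := ⟨η, gamma1_le_grp hη⟩ * γ ^ (B 0 0 ^ 2) * ⟨η, gamma1_le_grp hη⟩⁻¹
    have hpow : ∀ n : ℤ, ((γ ^ n : grp M c₀) : SL(2, ℤ)) =
        α * ModularGroup.T ^ (k * n) * α⁻¹ := fun n => by
      rw [SubgroupClass.coe_zpow, zpow_mul]
      exact conj_zpow
    have hspec : heckeRep ℓ i * ((γ ^ ℓ : grp M c₀) : SL(2, ℤ)).1 = (g : SL(2, ℤ)).1 * heckeRep ℓ i := by
      have hBB : B = !![B 0 0, B 0 1; 0, B 1 1] := by
        ext r s; fin_cases r <;> fin_cases s <;> simp [hB10]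
      have hT : B * ((ModularGroup.T ^ (k * ℓ) : SL(2, ℤ)) : ZMat) =
          ((ModularGroup.T ^ (k * B 0 0 ^ 2) : SL(2, ℤ)) : ZMat) * B := by
        rw [ModularGroup.coe_T_zpow, ModularGroup.coe_T_zpow, hBB]
        exact sl_mul_upper (by simp; linear_combination hm)
      have h1 : heckeRep ℓ i = ((η * α : SL(2, ℤ)) : ZMat) * B * ((α⁻¹ : SL(2, ℤ)) : ZMat) := by
        rw [hηα, mul_assoc, ← Matrix.SpecialLinearGroup.coe_mul, mul_inv_cancel,
          Matrix.SpecialLinearGroup.coe_one, mul_one]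
      have e1 : ((γ ^ ℓ : grp M c₀) : SL(2, ℤ)).1 = ((α * ModularGroup.T ^ (k * ℓ) * α⁻¹ : SL(2, ℤ)) : ZMat) := by
        rw [← hpow, zpow_natCast]
      have e2 : (g : SL(2, ℤ)).1 =
          ((η * (α * ModularGroup.T ^ (k * B 0 0 ^ 2) * α⁻¹) * η⁻¹ : SL(2, ℤ)) : ZMat) := by
        rw [← hpow]; rfl
      rw [e1, e2, h1]
      calc ((η * α : SL(2, ℤ)) : ZMat) * B * ((α⁻¹ : SL(2, ℤ)) : ZMat) *
            ((α * ModularGroup.T ^ (k * ℓ) * α⁻¹ : SL(2, ℤ)) : ZMat)
          = ((η * α : SL(2, ℤ)) : ZMat) * B *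
            ((α⁻¹ * (α * ModularGroup.T ^ (k * ℓ) * α⁻¹) : SL(2, ℤ)) : ZMat) := by
            rw [mul_assoc _ _ ((_ : SL(2, ℤ)) : ZMat), ← Matrix.SpecialLinearGroup.coe_mul]
        _ = ((η * α : SL(2, ℤ)) : ZMat) *
            (B * ((ModularGroup.T ^ (k * ℓ) : SL(2, ℤ)) : ZMat)) * ((α⁻¹ : SL(2, ℤ)) : ZMat) := by
            rw [← mul_assoc α⁻¹, ← mul_assoc α⁻¹, inv_mul_cancel, one_mul,
              Matrix.SpecialLinearGroup.coe_mul (ModularGroup.T ^ _)]
            simp only [mul_assoc]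
        _ = ((η * α * ModularGroup.T ^ (k * B 0 0 ^ 2) : SL(2, ℤ)) : ZMat) * B *
            ((α⁻¹ : SL(2, ℤ)) : ZMat) := by
            rw [hT, Matrix.SpecialLinearGroup.coe_mul _ (ModularGroup.T ^ _)]
            simp only [mul_assoc]
        _ = _ := by
            simp only [← mul_assoc]
            congr 2
            rw [← Matrix.SpecialLinearGroup.coe_mul]
            refine congrArg Subtype.val ?_
            simp only [mul_assoc, inv_mul_cancel_left, inv_mul_cancel, mul_one]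
            all_goals rfl
    rw [((isReps_std hg hℓ1).unique hspec).2, ofMul_mul, ofMul_mul, ofMul_inv, map_add, map_add,
      map_neg, ofMul_zpow, map_zsmul, hs]
    abel
  rw [IsReps.transfer_apply, Finset.sum_congr rfl fun i _ => key i, ← Finset.sum_smul,
    sum_repDiv_sq hg.prime hco]

/-- `T_ℓ - (ℓ+1)` takes values in parabolic homomorphisms for `ℓ ≡ 1 (mod M)`. -/
theorem transfer_sub_mem_parabolic (hg : GoodIndex M ℓ) (hℓ1 : (M : ℤ) ∣ (ℓ : ℤ) - 1)
    {R : SL(2, ℤ)} (hR : IsDiamond M ℓ R) {K : Type} [CommRing K] [Module K A]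
    (h2 : Function.Injective fun a : A => 2 • a) (hl : Function.Injective fun a : A => ℓ • a)
    (v : Additive (grp M c₀) →+ A) :
    (isReps_grp hg.prime hg.not_dvd hR).transfer v - (ℓ + 1) • v ∈
      ModularCurve.Period.parabolicHoms K (grp M c₀) A := by
  rw [transfer_eq_std hg hℓ1 hR]
  intro γ hγ
  set w := (isReps_std hg hℓ1).transfer v - (ℓ + 1) • v with hw
  obtain ⟨α, hα⟩ := Period.exists_conj_upper_of_trace_sq (γ : SL(2, ℤ)) hγ
  set d := α⁻¹ * (γ : SL(2, ℤ)) * α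
  have hd := det_two d
  rw [hα, mul_zero, sub_zero] at hd
  obtain ⟨k, hk⟩ : ∃ k : ℤ, d * d = ModularGroup.T ^ k := by
    refine ⟨(d * d : SL(2, ℤ)) 0 1, Matrix.SpecialLinearGroup.ext _ _ fun i j => ?_⟩
    rcases Int.mul_eq_one_iff_eq_one_or_neg_one.mp hd with ⟨e0, e1⟩ | ⟨e0, e1⟩ <;>
    · fin_cases i <;> fin_cases j <;>
        simp [ModularGroup.coe_T_zpow, Matrix.mul_apply, Fin.sum_univ_two, hα, e0, e1]
  have e2 : ((γ * γ : grp M c₀) : SL(2, ℤ)) = α * ModularGroup.T ^ k * α⁻¹ := by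
    rw [← hk, Subgroup.coe_mul]
    simp only [d]
    group
  have hmem : α * ModularGroup.T ^ k * α⁻¹ ∈ grp M c₀ := e2 ▸ (γ * γ).2
  have h1 := transfer_parabolic hg hℓ1 v α k hmem
  rw [show (⟨_, hmem⟩ : grp M c₀) = γ * γ from Subtype.ext e2.symm, ofMul_pow, map_nsmul] at h1
  have hz : w (Additive.ofMul (γ * γ)) = 0 := by
    refine hl ?_
    show ℓ • w _ = ℓ • (0 : A)
    rw [smul_zero, hw, AddMonoidHom.sub_apply, AddMonoidHom.smul_apply, smul_sub, h1,
      ← natCast_zsmul (a := v (Additive.ofMul (γ * γ))) (n := ℓ + 1), ← natCast_zsmul, smul_smul,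
      ← sub_smul]
    simp [sq, mul_add]
  rw [ofMul_mul, map_add, ← two_nsmul] at hz
  refine h2 ?_
  show 2 • w _ = 2 • (0 : A)
  rw [hz, smul_zero]

end Fermat.Agent.Auto
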