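/-
Auto A1: Fitting decompositions for a commuting family on a finite module over a complete local
ring with finite residue field: the projection away from the topologically nilpotent part is the
limit of the powers `f ^ n!`.
-/
import Fermat.Agent.Auto.Loc
import Fermat.Prelude.Sol.S_IsAdicComplete_of_module_finite

set_option autoImplicit false
set_option linter.unusedSectionVars false
set_option linter.style.haveILetI false

noncomputable section

namespace Fermat.Agent.Auto

open IsLocalRing Filter

variable {O : Type} [CommRing O] [IsLocalRing O]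

/-- The powers `f ^ n!` become stationary idempotents in a finite monoid. -/
theorem exists_pow_factorial_stable {K : Type*} [Monoid K] [Finite K] (x : K) :
    ∃ n₀ : ℕ, ∀ n, n₀ ≤ n → x ^ n.factorial = x ^ n₀.factorial ∧
      x ^ n.factorial * x ^ n.factorial = x ^ n.factorial := by
  obtain ⟨i, j, hij, e⟩ := Finite.exists_ne_map_eq_of_infinite fun i : ℕ => x ^ i
  wlog hlt : i < j generalizing i j with H
  · exact H j i hij.symm e.symm (lt_of_le_of_ne (not_lt.mp hlt) hij.symm)
  have hstep : ∀ m, i ≤ m → x ^ (m + (j - i)) = x ^ m := fun m hm => by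
    obtain ⟨t, rfl⟩ := Nat.exists_eq_add_of_le hm
    rw [show i + t + (j - i) = t + j by omega, pow_add, ← e, ← pow_add, add_comm]
  have hmul : ∀ k m, i ≤ m → x ^ (m + k * (j - i)) = x ^ m := fun k => by
    induction k with
    | zero => simp
    | succ k ih => intro m hm; rw [add_mul, one_mul, ← add_assoc, hstep _ (by omega), ih m hm]
  refine ⟨max i (j - i), fun n hn => ⟨?_, ?_⟩⟩
  · set a := (max i (j - i)).factorial
    have ha : i ≤ a := le_trans (le_max_left _ _) (Nat.self_le_factorial _)
    have hd : (j - i) ∣ n.factorial - a := Nat.dvd_sub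
      (Nat.dvd_factorial (by omega) (le_trans (le_max_right _ _) hn))
      (Nat.dvd_factorial (by omega) (le_max_right _ _))
    obtain ⟨k, hk⟩ := hd
    rw [show n.factorial = a + k * (j - i) by
      have : a ≤ n.factorial := Nat.factorial_le hn
      rw [mul_comm k]; omega, hmul k a ha]
  · have ha : i ≤ n.factorial := le_trans (le_trans (le_max_left _ _) hn) (Nat.self_le_factorial _)
    obtain ⟨k, hk⟩ := Nat.dvd_factorial (m := j - i) (n := n) (by omega)
      (le_trans (le_max_right _ _) hn)
    rw [← pow_add]
    nth_rewrite 2 [hk]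
    rw [mul_comm, hmul k _ ha]

variable {L : Type} [AddCommGroup L] [Module O L]

/-- The submodule `𝔪^k L`. -/
def mPow (O : Type) [CommRing O] [IsLocalRing O] (L : Type) [AddCommGroup L] [Module O L] (k : ℕ) :
    Submodule O L := (maximalIdeal O ^ k) • (⊤ : Submodule O L)

theorem mPow_antitone {k k' : ℕ} (h : k ≤ k') : mPow O L k' ≤ mPow O L k :=
  Submodule.smul_mono_left (Ideal.pow_le_pow_right h)

theorem map_mem_mPow {L' : Type} [AddCommGroup L'] [Module O L'] (g : L →ₗ[O] L') {k : ℕ} {x : L}
    (hx : x ∈ mPow O L k) : g x ∈ mPow O L' k :=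
  (Submodule.map_le_iff_le_comap.mp (le_of_eq_of_le (Submodule.map_smul'' _ _ _)
    (smul_mono_right _ le_top))) hx

theorem mPow_one : mPow O L 1 = maximalIdeal O • (⊤ : Submodule O L) := by rw [mPow, pow_one]

variable [IsNoetherianRing O] [Module.Finite O L]

theorem eq_zero_of_mem_mPow {x : L} (h : ∀ k, x ∈ mPow O L k) : x = 0 :=
  IsHausdorff.haus (inferInstance : IsHausdorff (maximalIdeal O) L) x fun k => SModEq.zero.mpr (h k)

variable [IsAdicComplete (maximalIdeal O) O] [Finite (ResidueField O)]

theorem finite_quot_mPow (k : ℕ) : Finite (L ⧸ mPow O L k) := by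
  haveI : Finite (O ⧸ maximalIdeal O) := inferInstanceAs (Finite (ResidueField O))
  haveI : Finite (O ⧸ maximalIdeal O ^ k) :=
    Ideal.finite_quotient_pow (maximalIdeal O).fg_of_isNoetherianRing k
  exact Module.finite_of_finite (O ⧸ maximalIdeal O ^ k) (M := L ⧸ (maximalIdeal O ^ k) • ⊤)

/-- The powers `f ^ n!` converge. -/
theorem exists_fitting (f : Module.End O L) : ∃ g : Module.End O L,
    ∀ k : ℕ, ∃ n₀ : ℕ, ∀ n : ℕ, n₀ ≤ n → ∀ x,
      g x - (f ^ (n : ℕ).factorial) x ∈ mPow O L k ∧ g x - g (g x) ∈ mPow O L k := by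
  classical
  haveI := P2MW.S_IsAdicComplete_of_module_finite.M4cP1X1.isPrecomplete_of_module_finite
    (maximalIdeal O) (M := L)
  have key : ∀ k, ∃ n₀ : ℕ, ∀ n : ℕ, n₀ ≤ n → ∀ x,
      (f ^ n.factorial) x - (f ^ n₀.factorial) x ∈ mPow O L k ∧
        (f ^ n.factorial) ((f ^ n.factorial) x) - (f ^ n.factorial) x ∈ mPow O L k := by
    intro k
    haveI := finite_quot_mPow (O := O) (L := L) k
    let fb : Module.End O (L ⧸ mPow O L k) :=
      (mPow O L k).mapQ _ f fun x hx => map_mem_mPow f hx
    haveI : Finite (Module.End O (L ⧸ mPow O L k)) :=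
      Finite.of_injective _ DFunLike.coe_injective
    have hpow : ∀ m x, (fb ^ m) (Submodule.Quotient.mk x) = Submodule.Quotient.mk ((f ^ m) x) := by
      intro m
      induction m with
      | zero => intro x; rfl
      | succ m ih =>
        intro x
        rw [pow_succ, pow_succ, Module.End.mul_apply, Module.End.mul_apply, Submodule.mapQ_apply, ih]
    obtain ⟨n₀, h⟩ := exists_pow_factorial_stable fb
    refine ⟨n₀, fun n hn x => ⟨(Submodule.Quotient.eq _).mp ?_, (Submodule.Quotient.eq _).mp ?_⟩⟩
    · rw [← hpow, ← hpow, (h n hn).1]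
    · rw [← hpow, ← hpow, ← Module.End.mul_apply, (h n hn).2]
  choose N hN using key
  let N' : ℕ → ℕ := fun k => (Finset.range (k + 1)).sup N
  have hN' : ∀ {j k}, j ≤ k → N j ≤ N' k := fun h =>
    Finset.le_sup (f := N) (Finset.mem_range.mpr (Nat.lt_succ_of_le h))
  have hlim : ∀ x, ∃ y, ∀ k, (f ^ (N' k).factorial) x ≡ y
      [SMOD ((maximalIdeal O ^ k) • ⊤ : Submodule O L)] := fun x =>
    IsPrecomplete.prec (inferInstance : IsPrecomplete (maximalIdeal O) L) fun {j k} h => by
      rw [SModEq.sub_mem]
      have := sub_mem (hN j (N' j) (hN' le_rfl) x).1 (hN j (N' k) (hN' h) x).1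
      rwa [sub_sub_sub_cancel_right] at this
  choose g hg using hlim
  have hgn : ∀ k n, N k ≤ n → ∀ x, g x - (f ^ n.factorial) x ∈ mPow O L k := fun k n hn x => by
    have h1 := neg_mem (SModEq.sub_mem.mp (hg x k))
    have h2 := sub_mem (hN k (N' k) (hN' le_rfl) x).1 (hN k n hn x).1
    show g x - (f ^ n.factorial) x ∈ mPow O L k
    rw [show g x - (f ^ n.factorial) x = -((f ^ (N' k).factorial) x - g x) +
      ((f ^ (N' k).factorial) x - (f ^ (N k).factorial) x -
        ((f ^ n.factorial) x - (f ^ (N k).factorial) x)) by abel]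
    exact add_mem h1 h2
  let G : Module.End O L :=
    { toFun := g
      map_add' := fun x y => sub_eq_zero.mp <| eq_zero_of_mem_mPow (O := O) fun k => by
        have h := sub_mem (sub_mem (hgn k _ le_rfl (x + y)) (hgn k _ le_rfl x)) (hgn k _ le_rfl y)
        convert h using 1
        rw [map_add]; abel
      map_smul' := fun c x => sub_eq_zero.mp <| eq_zero_of_mem_mPow (O := O) fun k => by
        have h := sub_mem (hgn k _ le_rfl (c • x)) (Submodule.smul_mem _ c (hgn k _ le_rfl x))
        convert h using 1
        rw [map_smul, smul_sub, RingHom.id_apply]; abel }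
  refine ⟨G, fun k => ⟨N k, fun n hn x => ⟨hgn k n hn x, ?_⟩⟩⟩
  show g x - g (g x) ∈ _
  have h1 := hgn k n hn x
  have h2 := hgn k n hn (g x)
  have h3 := map_mem_mPow (f ^ n.factorial) h1
  rw [map_sub] at h3
  have h4 := (hN k n hn x).2
  convert sub_mem (sub_mem (sub_mem h1 h2) h3) h4 using 1
  abel

/-- The projection onto the part where `f` is invertible. -/
def fitProj (f : Module.End O L) : Module.End O L := (exists_fitting f).choose

theorem fitProj_spec (f : Module.End O L) (k : ℕ) : ∃ n₀ : ℕ, ∀ n : ℕ, n₀ ≤ n → ∀ x,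
    fitProj f x - (f ^ n.factorial) x ∈ mPow O L k ∧
      fitProj f x - fitProj f (fitProj f x) ∈ mPow O L k :=
  (exists_fitting f).choose_spec k

theorem fitProj_idem (f : Module.End O L) : fitProj f * fitProj f = fitProj f :=
  LinearMap.ext fun x => (sub_eq_zero.mp <| eq_zero_of_mem_mPow (O := O) fun k => by
    obtain ⟨n₀, h⟩ := fitProj_spec f k
    exact (h n₀ le_rfl x).2).symm

/-- Intertwiners respect the projections. -/
theorem fitProj_natural {L' : Type} [AddCommGroup L'] [Module O L'] [Module.Finite O L']
    {f : Module.End O L} {f' : Module.End O L'} (φ : L →ₗ[O] L') (h : ∀ x, φ (f x) = f' (φ x))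
    (x : L) : φ (fitProj f x) = fitProj f' (φ x) := by
  have hp : ∀ m x, φ ((f ^ m) x) = (f' ^ m) (φ x) := fun m => by
    induction m with
    | zero => intro x; rfl
    | succ m ih =>
      intro x; rw [pow_succ, pow_succ, Module.End.mul_apply, Module.End.mul_apply, ih, h]
  refine sub_eq_zero.mp <| eq_zero_of_mem_mPow (O := O) fun k => ?_
  obtain ⟨n₀, h1⟩ := fitProj_spec f k
  obtain ⟨n₁, h2⟩ := fitProj_spec f' k
  have e1 := map_mem_mPow φ (h1 (max n₀ n₁) (le_max_left _ _) x).1
  rw [map_sub, hp] at e1
  convert sub_mem e1 (h2 (max n₀ n₁) (le_max_right _ _) (φ x)).1 using 1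
  abel

theorem fitProj_comm {f g : Module.End O L} (h : Commute g f) : Commute g (fitProj f) :=
  LinearMap.ext fun x => fitProj_natural g (fun y => LinearMap.congr_fun h.eq y) x

/-- The kernel is the topologically nilpotent part. -/
theorem fitProj_eq_zero_iff (f : Module.End O L) (x : L) :
    fitProj f x = 0 ↔ ∀ k, ∃ j, ∀ j', j ≤ j' → (f ^ j') x ∈ mPow O L k := by
  refine ⟨fun hx k => ?_, fun hx => eq_zero_of_mem_mPow (O := O) fun k => ?_⟩
  · obtain ⟨n₀, h⟩ := fitProj_spec f k
    refine ⟨n₀.factorial, fun j' hj => ?_⟩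
    have := map_mem_mPow (f ^ (j' - n₀.factorial)) (neg_mem (h n₀ le_rfl x).1)
    rwa [hx, zero_sub, neg_neg, ← Module.End.mul_apply, ← pow_add, Nat.sub_add_cancel hj] at this
  · obtain ⟨n₀, h⟩ := fitProj_spec f k
    obtain ⟨j, hj⟩ := hx k
    have := add_mem (h (max n₀ j) (le_max_left _ _) x).1
      (hj _ ((le_max_right n₀ j).trans (Nat.self_le_factorial _)))
    rwa [sub_add_cancel] at this

/-- If `f x` is divisible by the maximal ideal then so is the projection. -/
theorem fitProj_mem_of_apply_mem {f : Module.End O L} {x : L} (h : f x ∈ mPow O L 1) :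
    fitProj f x ∈ mPow O L 1 := by
  obtain ⟨n₀, h1⟩ := fitProj_spec f 1
  have := add_mem (h1 n₀ le_rfl x).1 (show (f ^ n₀.factorial) x ∈ mPow O L 1 by
    rw [← Nat.sub_add_cancel (Nat.factorial_pos n₀), pow_succ, Module.End.mul_apply]
    exact map_mem_mPow _ h)
  rwa [sub_add_cancel] at this

/-! ## Families -/

variable {ι : Type} (T : ι → Module.End O L) (a : ι → O)

/-- The shifted operator. -/
def shiftOp (i : ι) : Module.End O L := T i - algebraMap O (Module.End O L) (a i)

/-- The projection onto the nilpotent part of one operator. -/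
def nilProj (i : ι) : Module.End O L := 1 - fitProj (shiftOp T a i)

theorem nilProj_idem (i : ι) : nilProj T a i * nilProj T a i = nilProj T a i := by
  simp only [nilProj, sub_mul, mul_sub, one_mul, mul_one, fitProj_idem, sub_self, sub_zero]

theorem commute_nilProj {g : Module.End O L} {i : ι} (h : Commute g (T i)) :
    Commute g (nilProj T a i) :=
  (Commute.one_right g).sub_right
    (fitProj_comm (h.sub_right ((Algebra.commute_algebraMap_left (a i) g).symm)))

theorem mem_locPart_iff_nilProj {x : L} : x ∈ locPart T a ↔ ∀ i, nilProj T a i x = x := by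
  refine forall_congr' fun i => Iff.trans (fitProj_eq_zero_iff (shiftOp T a i) x).symm ?_
  simp [nilProj]

variable {T} (hT : ∀ i j, Commute (T i) (T j))

include hT in
theorem nilProj_commute (i j : ι) : Commute (nilProj T a i) (nilProj T a j) :=
  commute_nilProj T a ((commute_nilProj T a (hT j i)).symm)

/-- The product of the projections of a finite set. -/
def finProj (F : Finset ι) : Module.End O L :=
  F.noncommProd (nilProj T a) fun i _ j _ _ => nilProj_commute a hT i j

theorem commute_finProj {g : Module.End O L} (hg : ∀ i, Commute g (T i)) (F : Finset ι) :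
    Commute g (finProj a hT F) :=
  Finset.noncommProd_commute _ _ _ _ fun i _ => commute_nilProj T a (hg i)

theorem finProj_insert [DecidableEq ι] (i : ι) (F : Finset ι) :
    finProj a hT (insert i F) = nilProj T a i * finProj a hT F := by
  by_cases hi : i ∈ F
  · have h := Finset.mul_noncommProd_erase F hi (nilProj T a)
      (fun i _ j _ _ => nilProj_commute a hT i j)
    rw [Finset.insert_eq_self.mpr hi]
    show F.noncommProd _ _ = _ * F.noncommProd _ _
    rw [← h, ← mul_assoc, nilProj_idem]
  · exact Finset.noncommProd_insert_of_notMem _ _ _ _ hi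

theorem finProj_empty : finProj a hT (∅ : Finset ι) = 1 := Finset.noncommProd_empty _ _

/-- A finite set after which the product of the projections is stationary. -/
theorem exists_stable : ∃ F : Finset ι, ∀ F', F ⊆ F' → finProj a hT F' = finProj a hT F := by
  classical
  haveI : IsNoetherian O L := isNoetherian_of_isNoetherianRing_of_finite O L
  obtain ⟨m, ⟨F, rfl⟩, hF⟩ := set_has_maximal_iff_noetherian.mpr (inferInstance : IsNoetherian O L)
    (Set.range fun F : Finset ι => LinearMap.ker (finProj a hT F)) ⟨_, ∅, rfl⟩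
  refine ⟨F, fun F' hFF' => ?_⟩
  have hins : ∀ i, nilProj T a i * finProj a hT F = finProj a hT F := by
    intro i
    have hc : Commute (nilProj T a i) (finProj a hT F) :=
      commute_finProj a hT (fun j => (commute_nilProj T a (hT j i)).symm) F
    have hle : LinearMap.ker (finProj a hT F) ≤ LinearMap.ker (finProj a hT (insert i F)) :=
      fun x hx => by
        rw [LinearMap.mem_ker] at hx ⊢
        rw [finProj_insert, Module.End.mul_apply, hx, map_zero]
    have heq : LinearMap.ker (finProj a hT F) = LinearMap.ker (finProj a hT (insert i F)) :=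
      eq_of_le_of_not_lt hle (hF _ ⟨insert i F, rfl⟩)
    refine LinearMap.ext fun x => ?_
    have hx : x - nilProj T a i x ∈ LinearMap.ker (finProj a hT F) := by
      rw [heq, LinearMap.mem_ker, finProj_insert, hc.eq, Module.End.mul_apply, map_sub,
        ← Module.End.mul_apply, nilProj_idem, sub_self, map_zero]
    rw [LinearMap.mem_ker, map_sub, sub_eq_zero, ← Module.End.mul_apply, ← hc.eq] at hx
    exact hx.symm
  have hall : ∀ E : Finset ι, finProj a hT (E ∪ F) = finProj a hT F := by
    intro E
    induction E using Finset.induction with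
    | empty => rw [Finset.empty_union]
    | insert i E _ ih => rw [Finset.insert_union, finProj_insert, ih, hins]
  rw [← Finset.union_eq_left.mpr hFF', hall]

/-- The projection onto the localised part. -/
def locProj : Module.End O L := finProj a hT (exists_stable a hT).choose

theorem locProj_eq (F : Finset ι) (h : (exists_stable a hT).choose ⊆ F) :
    finProj a hT F = locProj a hT := (exists_stable a hT).choose_spec F h

theorem nilProj_mul_locProj (i : ι) : nilProj T a i * locProj a hT = locProj a hT := by
  classical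
  conv_lhs => rw [locProj]
  rw [← finProj_insert]
  exact locProj_eq a hT _ (Finset.subset_insert _ _)

theorem commute_locProj {g : Module.End O L} (hg : ∀ i, Commute g (T i)) :
    Commute g (locProj a hT) := commute_finProj a hT hg _

theorem finProj_apply_of_mem {x : L} (hx : x ∈ locPart T a) (F : Finset ι) :
    finProj a hT F x = x := by
  classical
  induction F using Finset.induction with
  | empty => rw [finProj_empty]; rfl
  | insert i F _ ih =>
    rw [finProj_insert, Module.End.mul_apply, ih, (mem_locPart_iff_nilProj T a).mp hx]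

theorem locProj_apply_of_mem {x : L} (hx : x ∈ locPart T a) : locProj a hT x = x :=
  finProj_apply_of_mem a hT hx _

theorem locProj_mem (x : L) : locProj a hT x ∈ locPart T a :=
  (mem_locPart_iff_nilProj T a).mpr fun i => by
    rw [← Module.End.mul_apply, nilProj_mul_locProj]

theorem mem_locPart_iff_locProj {x : L} : x ∈ locPart T a ↔ locProj a hT x = x :=
  ⟨locProj_apply_of_mem a hT, fun h => h ▸ locProj_mem a hT x⟩

theorem locProj_idem : locProj a hT * locProj a hT = locProj a hT :=
  LinearMap.ext fun x => locProj_apply_of_mem a hT (locProj_mem a hT x)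

theorem isCompl_locPart : IsCompl (locPart T a) (LinearMap.ker (locProj a hT)) := by
  refine IsCompl.of_eq (Submodule.eq_bot_iff _ |>.mpr fun x hx => ?_)
    (eq_top_iff.mpr fun x _ => ?_)
  · exact (locProj_apply_of_mem a hT hx.1).symm.trans hx.2
  · refine Submodule.mem_sup.mpr ⟨_, locProj_mem a hT x, x - locProj a hT x, ?_, by abel⟩
    rw [LinearMap.mem_ker, map_sub, ← Module.End.mul_apply, locProj_idem, sub_self]

/-- Intertwiners respect the localising projections. -/
theorem locProj_natural {L' : Type} [AddCommGroup L'] [Module O L'] [Module.Finite O L']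
    {T' : ι → Module.End O L'} (hT' : ∀ i j, Commute (T' i) (T' j)) (φ : L →ₗ[O] L')
    (h : ∀ i x, φ (T i x) = T' i (φ x)) (x : L) : φ (locProj a hT x) = locProj a hT' (φ x) := by
  classical
  have hn : ∀ i x, φ (nilProj T a i x) = nilProj T' a i (φ x) := fun i x => by
    simp only [nilProj, LinearMap.sub_apply, Module.End.one_apply, map_sub]
    rw [fitProj_natural φ (f' := shiftOp T' a i) fun y => by simp [shiftOp, h]]
  have hF : ∀ F : Finset ι, ∀ x, φ (finProj a hT F x) = finProj a hT' F (φ x) := by
    intro F
    induction F using Finset.induction with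
    | empty => intro x; rw [finProj_empty, finProj_empty]; rfl
    | insert i F _ ih =>
      intro x
      rw [finProj_insert, finProj_insert, Module.End.mul_apply, Module.End.mul_apply, hn, ih]
  rw [← locProj_eq a hT _ Finset.subset_union_left,
    ← locProj_eq a hT' _ (Finset.subset_union_right
      (s₁ := (exists_stable a hT).choose)), hF]

include hT in
/-- The part vanishes if it has no eigenvector modulo the maximal ideal. -/
theorem mem_mPow_one_of_eigen (hbot : locPart T a = ⊥) {x : L}
    (h : ∀ i, T i x - a i • x ∈ mPow O L 1) : x ∈ mPow O L 1 := by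
  classical
  have hF : ∀ F : Finset ι, finProj a hT F x - x ∈ mPow O L 1 := by
    intro F
    induction F using Finset.induction with
    | empty => rw [finProj_empty]; simp
    | insert i F _ ih =>
      rw [finProj_insert, Module.End.mul_apply]
      have h1 := map_mem_mPow (nilProj T a i) ih
      have h2 : nilProj T a i x - x ∈ mPow O L 1 := by
        rw [nilProj, LinearMap.sub_apply, Module.End.one_apply, sub_sub_cancel_left]
        exact neg_mem (fitProj_mem_of_apply_mem (by simpa [shiftOp] using h i))
      rw [map_sub] at h1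
      convert add_mem h1 h2 using 1
      abel
  have h0 : locProj a hT x = 0 := by
    have := locProj_mem a hT x
    rwa [hbot, Submodule.mem_bot] at this
  have := hF (exists_stable a hT).choose
  rwa [show finProj a hT _ x = 0 from h0, zero_sub, neg_mem_iff] at this

include hT in
/-- A nonzero part has an eigenvector modulo the maximal ideal. -/
theorem exists_eigen_of_ne_bot (hne : locPart T a ≠ ⊥) :
    ∃ x, x ∉ mPow O L 1 ∧ ∀ i, T i x - a i • x ∈ mPow O L 1 := by
  classical
  haveI := finite_quot_mPow (O := O) (L := L) 1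
  set q := (mPow O L 1).mkQ
  have hW : (locPart T a).map q ≠ ⊥ := by
    intro h0
    refine hne ?_
    have hle : locPart T a ≤ (maximalIdeal O) • locPart T a := by
      intro x hx
      have hxm : x ∈ mPow O L 1 :=
        (Submodule.Quotient.mk_eq_zero _).mp
          ((Submodule.mem_bot O).mp (h0 ▸ Submodule.mem_map_of_mem hx))
      rw [mPow_one] at hxm
      have h2 : locProj a hT x ∈ (maximalIdeal O • (⊤ : Submodule O L)).map (locProj a hT) :=
        Submodule.mem_map_of_mem hxm
      rw [locProj_apply_of_mem a hT hx, Submodule.map_smul''] at h2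
      refine Submodule.smul_mono le_rfl ?_ h2
      rintro _ ⟨y, -, rfl⟩
      exact locProj_mem a hT y
    exact Submodule.eq_bot_of_le_smul_of_le_jacobson_bot _ _ (IsNoetherian.noetherian _) hle
      (maximalIdeal_le_jacobson _)
  -- a minimal stable nonzero submodule of the image
  let Tb : ι → Module.End O (L ⧸ mPow O L 1) := fun i =>
    (mPow O L 1).mapQ _ (shiftOp T a i) fun x hx => map_mem_mPow _ hx
  have hTb : ∀ i j, Commute (Tb i) (Tb j) := fun i j => LinearMap.ext fun y => by
    obtain ⟨x, rfl⟩ := Submodule.mkQ_surjective _ y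
    show Submodule.Quotient.mk (shiftOp T a i (shiftOp T a j x)) =
      Submodule.Quotient.mk (shiftOp T a j (shiftOp T a i x))
    rw [← Module.End.mul_apply, ← Module.End.mul_apply, show shiftOp T a i * shiftOp T a j =
      shiftOp T a j * shiftOp T a i from ((hT i j).sub_left (Algebra.commute_algebraMap_left _ _))
        |>.sub_right (Algebra.commute_algebraMap_left _ _).symm |>.eq]
  let 𝒩 : Set (Submodule O (L ⧸ mPow O L 1)) :=
    {N | N ≤ (locPart T a).map q ∧ N ≠ ⊥ ∧ ∀ i, N.map (Tb i) ≤ N}
  have hmem : (locPart T a).map q ∈ 𝒩 := ⟨le_rfl, hW, fun i => by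
    rintro _ ⟨_, ⟨x, hx, rfl⟩, rfl⟩
    exact ⟨shiftOp T a i x, map_locPart_le _ (fun j => (hT i j).sub_left
      (Algebra.commute_algebraMap_left _ _)) hx, rfl⟩⟩
  haveI : IsArtinian O (L ⧸ mPow O L 1) := isArtinian_of_finite
  obtain ⟨N, ⟨hNle, hN0, hNst⟩, hmin⟩ := IsArtinian.set_has_minimal 𝒩 ⟨_, hmem⟩
  have hkill : ∀ i, ∀ y ∈ N, Tb i y = 0 := fun i => by
    have h1 : N ⊓ LinearMap.ker (Tb i) ≠ ⊥ := by
      obtain ⟨y, hy, hy0⟩ := (Submodule.ne_bot_iff N).mp hN0
      obtain ⟨x, hx, rfl⟩ := hNle hy
      obtain ⟨j, hj⟩ := hx i 1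
      have hpow : ∀ j, ((Tb i) ^ j) (q x) = q ((shiftOp T a i ^ j) x) := fun j => by
        induction j with
        | zero => rfl
        | succ j ih => rw [pow_succ', pow_succ', Module.End.mul_apply, Module.End.mul_apply, ih]; rfl
      have hzero : ((Tb i) ^ j) (q x) = 0 := by
        rw [hpow]; exact (Submodule.Quotient.mk_eq_zero _).mpr (hj j le_rfl)
      intro h0
      have hinj : ∀ z ∈ N, Tb i z = 0 → z = 0 := fun z hz hz0 =>
        (Submodule.mem_bot O).mp (h0 ▸ ⟨hz, LinearMap.mem_ker.mpr hz0⟩)
      refine hy0 ?_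
      clear hj hpow
      induction j with
      | zero => simpa using hzero
      | succ j ih =>
        have hm : ∀ j, ((Tb i) ^ j) (q x) ∈ N := fun j => by
          induction j with
          | zero => simpa using hy
          | succ j ih => rw [pow_succ', Module.End.mul_apply]; exact hNst i ⟨_, ih, rfl⟩
        rw [pow_succ', Module.End.mul_apply] at hzero
        exact ih (hinj _ (hm j) hzero)
    have hin : N ⊓ LinearMap.ker (Tb i) ∈ 𝒩 := ⟨inf_le_left.trans hNle, h1, fun j => by
      rintro _ ⟨y, ⟨hy, hy'⟩, rfl⟩
      refine ⟨hNst j ⟨y, hy, rfl⟩, ?_⟩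
      show Tb i (Tb j y) = 0
      rw [← Module.End.mul_apply, (hTb i j).eq, Module.End.mul_apply, LinearMap.mem_ker.mp hy',
        map_zero]⟩
    have heq := eq_of_le_of_not_lt inf_le_left (hmin _ hin)
    intro y hy
    exact LinearMap.mem_ker.mp (heq.symm ▸ hy : y ∈ N ⊓ LinearMap.ker (Tb i)).2
  obtain ⟨y, hy, hy0⟩ := (Submodule.ne_bot_iff N).mp hN0
  obtain ⟨x, -, rfl⟩ := hNle hy
  refine ⟨x, fun h => hy0 ((Submodule.Quotient.mk_eq_zero _).mpr h), fun i => ?_⟩
  have := (Submodule.Quotient.mk_eq_zero _).mp (show Submodule.Quotient.mk (shiftOp T a i x) = 0 from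
    hkill i _ hy)
  simpa [shiftOp] using this

end Fermat.Agent.Auto
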