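/-
Auto A1: a lattice with an action of a finite `p`-group is free over the group ring when, modulo
the maximal ideal, every invariant vector is a norm.
-/
import Mathlib

set_option autoImplicit false
set_option linter.unusedSectionVars false
set_option linter.style.haveILetI false

noncomputable section

namespace Fermat.Agent.Auto

open IsLocalRing

/-- A `p`-group acting additively on a finite `p`-primary group fixes a nonzero vector. -/
theorem exists_fixed_ne_zero {p : ℕ} [Fact p.Prime] {Δ : Type*} [Group Δ] (hΔ : IsPGroup p Δ)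
    {V : Type*} [AddCommGroup V] [Finite V] [Nontrivial V] (hV : ∀ v : V, p • v = 0)
    (D : Δ →* AddMonoid.End V) : ∃ v : V, v ≠ 0 ∧ ∀ u, D u v = v := by
  classical
  haveI : Fintype V := Fintype.ofFinite V
  let _act : MulAction Δ V :=
    { smul := fun u v => D u v
      one_smul := fun v => by show D 1 v = v; rw [map_one]; rfl
      mul_smul := fun u u' v => by show D (u * u') v = D u (D u' v); rw [map_mul]; rfl }
  obtain ⟨v, hv⟩ := exists_ne (0 : V)
  have hp : p ∣ Nat.card V := by
    rw [← addOrderOf_eq_prime (hV v) hv]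
    exact addOrderOf_dvd_natCard v
  obtain ⟨w, hw, hw0⟩ := hΔ.exists_fixed_point_of_prime_dvd_card_of_fixed_point V hp
    (a := (0 : V)) (fun u => map_zero (D u))
  exact ⟨w, Ne.symm hw0, hw⟩

variable {O : Type} [CommRing O] [IsDomain O] [IsDiscreteValuationRing O]
  [Finite (ResidueField O)] {p : ℕ} [Fact p.Prime] {M : Type} [AddCommGroup M] [Module O M]
  [Module.Finite O M] [Module.IsTorsionFree O M] {Δ : Type} [CommGroup Δ] [Fintype Δ]
  (D : Δ →* Module.End O M)

/-- The map out of a free module over the group ring. -/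
def groupSum {n : ℕ} (b : Fin n → M) : (Fin n → Δ → O) →ₗ[O] M where
  toFun f := ∑ i, ∑ u, f i u • D u (b i)
  map_add' f g := by simp only [Pi.add_apply, add_smul, Finset.sum_add_distrib]
  map_smul' r f := by
    simp only [Pi.smul_apply, smul_eq_mul, mul_smul, RingHom.id_apply, Finset.smul_sum]

theorem groupSum_apply {n : ℕ} (b : Fin n → M) (f : Fin n → Δ → O) :
    groupSum D b f = ∑ i, ∑ u, f i u • D u (b i) := rfl

theorem apply_groupSum {n : ℕ} (b : Fin n → M) (v : Δ) (f : Fin n → Δ → O) :
    D v (groupSum D b f) = groupSum D b fun i u => f i (v⁻¹ * u) := by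
  simp only [groupSum_apply, map_sum, map_smul]
  refine Finset.sum_congr rfl fun i _ => ?_
  rw [← Equiv.sum_comp (Equiv.mulLeft v) fun u => f i (v⁻¹ * u) • D u (b i)]
  refine Finset.sum_congr rfl fun u _ => ?_
  simp only [Equiv.coe_mulLeft, inv_mul_cancel_left, map_mul, Module.End.mul_apply]

/-- Freeness over the group ring. -/
theorem exists_groupSum_bijective (hΔ : IsPGroup p Δ) (hp : (p : O) ∈ maximalIdeal O)
    (h : ∀ x : M, (∀ u, D u x - x ∈ maximalIdeal O • (⊤ : Submodule O M)) →
      ∃ y, x - ∑ u, D u y ∈ maximalIdeal O • (⊤ : Submodule O M)) :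
    ∃ (n : ℕ) (b : Fin n → M), Function.Bijective (groupSum D b) := by
  classical
  haveI : Finite (O ⧸ maximalIdeal O) := inferInstanceAs (Finite (ResidueField O))
  letI := Ideal.Quotient.field (maximalIdeal O)
  set P : Submodule O M := maximalIdeal O • ⊤
  haveI : Finite (M ⧸ P) :=
    Module.finite_of_finite (O ⧸ maximalIdeal O) (M := M ⧸ (maximalIdeal O) • (⊤ : Submodule O M))
  have hP : ∀ (u : Δ), P ≤ P.comap (D u) := fun u => by
    rw [← Submodule.map_le_iff_le_comap, Submodule.map_smul'']
    exact Submodule.smul_mono le_rfl le_top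
  -- the reduction
  let Db : Δ → Module.End (O ⧸ maximalIdeal O) (M ⧸ P) := fun u =>
    { toFun := P.mapQ P (D u) (hP u)
      map_add' := map_add _
      map_smul' := fun c x => by
        obtain ⟨c, rfl⟩ := Ideal.Quotient.mk_surjective c
        exact (map_smul (P.mapQ P (D u) (hP u)) c x).trans rfl }
  have hDb : ∀ u x, Db u (Submodule.Quotient.mk x) = Submodule.Quotient.mk (D u x) := fun _ _ => rfl
  let Dh : Δ →* AddMonoid.End (M ⧸ P) :=
    { toFun := fun u => (Db u).toAddMonoidHom
      map_one' := AddMonoidHom.ext fun y => by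
        obtain ⟨x, rfl⟩ := Submodule.mkQ_surjective P y
        show Db 1 _ = _
        rw [Submodule.mkQ_apply, hDb, map_one]; rfl
      map_mul' := fun u v => AddMonoidHom.ext fun y => by
        obtain ⟨x, rfl⟩ := Submodule.mkQ_surjective P y
        refine Eq.trans (b := Db u (Db v (P.mkQ x))) ?_ rfl
        simp only [LinearMap.toAddMonoidHom_coe, Submodule.mkQ_apply, hDb, map_mul]; rfl }
  let V : Submodule (O ⧸ maximalIdeal O) (M ⧸ P) := ⨅ u, LinearMap.ker (Db u - 1)
  have hV : ∀ x, x ∈ V ↔ ∀ u, Db u x = x := fun x => by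
    simp [V, sub_eq_zero]
  set n := Module.finrank (O ⧸ maximalIdeal O) V
  let v := Module.finBasis (O ⧸ maximalIdeal O) V
  have hy : ∀ i, ∃ y : M, ((v i : V) : M ⧸ P) = Submodule.Quotient.mk (∑ u, D u y) := fun i => by
    obtain ⟨x, hx⟩ := Submodule.mkQ_surjective P ((v i : V) : M ⧸ P)
    obtain ⟨y, hy⟩ := h x fun u => (Submodule.Quotient.eq P).mp (by
      rw [← hDb, ← Submodule.mkQ_apply, hx]; exact (hV _).mp (v i).2 u)
    exact ⟨y, hx ▸ (Submodule.Quotient.eq P).mpr hy⟩
  choose b hb using hy
  refine ⟨n, b, ?_⟩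
  set Φ := groupSum D b
  -- the reduced map
  let Φb : (Fin n → Δ → (O ⧸ maximalIdeal O)) →ₗ[(O ⧸ maximalIdeal O)] M ⧸ P :=
    { toFun := fun f => ∑ i, ∑ u, f i u • Db u (Submodule.Quotient.mk (b i))
      map_add' := fun f g => by simp only [Pi.add_apply, add_smul, Finset.sum_add_distrib]
      map_smul' := fun r f => by
        simp only [Pi.smul_apply, smul_eq_mul, mul_smul, RingHom.id_apply, Finset.smul_sum] }
  have hΦb : ∀ f : Fin n → Δ → O, Φb (fun i u => Ideal.Quotient.mk _ (f i u)) =
      Submodule.Quotient.mk (Φ f) := fun f => by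
    show _ = P.mkQ (Φ f)
    simp only [Φ, groupSum_apply, map_sum, Φb, LinearMap.coe_mk, AddHom.coe_mk]
    rfl
  have hinj : Function.Injective Φb := by
    rw [← LinearMap.ker_eq_bot]
    by_contra hne
    haveI : Nontrivial (LinearMap.ker Φb) := Submodule.nontrivial_iff_ne_bot.mpr hne
    have htr : ∀ (u : Δ) (f : Fin n → Δ → (O ⧸ maximalIdeal O)), Φb (fun i w => f i (u⁻¹ * w)) = Db u (Φb f) := by
      intro u f
      simp only [Φb, LinearMap.coe_mk, AddHom.coe_mk, map_sum, map_smul]
      refine Finset.sum_congr rfl fun i _ => ?_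
      rw [← Equiv.sum_comp (Equiv.mulLeft u)]
      refine Finset.sum_congr rfl fun w _ => ?_
      simp only [Equiv.coe_mulLeft, inv_mul_cancel_left, hDb, map_mul, Module.End.mul_apply]
    let R : Δ →* AddMonoid.End (LinearMap.ker Φb) :=
      { toFun := fun u =>
          { toFun := fun f => ⟨fun i w => f.1 i (u⁻¹ * w), by
              rw [LinearMap.mem_ker, htr, LinearMap.mem_ker.mp f.2, map_zero]⟩
            map_zero' := rfl
            map_add' := fun _ _ => rfl }
        map_one' := AddMonoidHom.ext fun f => Subtype.ext (funext fun i => funext fun w => by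
          show f.1 i (1⁻¹ * w) = f.1 i w
          rw [inv_one, one_mul])
        map_mul' := fun u u' => AddMonoidHom.ext fun f =>
          Subtype.ext (funext fun i => funext fun w => by
            show f.1 i ((u * u')⁻¹ * w) = f.1 i (u'⁻¹ * (u⁻¹ * w))
            rw [mul_inv_rev, mul_assoc]) }
    obtain ⟨⟨f, hf⟩, hf0, hfix⟩ := exists_fixed_ne_zero (p := p) hΔ (fun f => by
      refine Subtype.ext (funext fun i => funext fun w => ?_)
      show p • f.1 i w = 0
      rw [nsmul_eq_mul, show ((p : ℕ) : (O ⧸ maximalIdeal O)) = Ideal.Quotient.mk _ (p : O) by rw [map_natCast],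
        Ideal.Quotient.eq_zero_iff_mem.mpr hp, zero_mul]) R
    have hconst : ∀ i w, f i w = f i 1 := fun i w => by
      have := congrFun (congrFun (congrArg Subtype.val (hfix w)) i) w
      exact this.symm.trans (by show f i (w⁻¹ * w) = _; rw [inv_mul_cancel])
    refine hf0 (Subtype.ext (funext fun i => funext fun w => ?_))
    show f i w = 0
    rw [hconst]
    have h0 : ∑ i, f i 1 • ((v i : V) : M ⧸ P) = 0 := by
      rw [← LinearMap.mem_ker.mp hf]
      simp only [Φb, LinearMap.coe_mk, AddHom.coe_mk]
      refine Finset.sum_congr rfl fun i _ => ?_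
      rw [hb i, ← Submodule.mkQ_apply, map_sum, Finset.smul_sum]
      exact Finset.sum_congr rfl fun u _ => by rw [hconst i u, hDb]; rfl
    exact Fintype.linearIndependent_iff.mp (v.linearIndependent.map' V.subtype V.ker_subtype)
      (fun i => f i 1) h0 i
  obtain ⟨π, hπ⟩ := V.subtype.exists_leftInverse_of_injective V.ker_subtype
  let Ψ : (M ⧸ P) →ₗ[(O ⧸ maximalIdeal O)] (Δ → V) := LinearMap.pi fun u => π ∘ₗ Db u
  have hΨ : Function.Injective Ψ := by
    rw [← LinearMap.ker_eq_bot]
    by_contra hne
    haveI : Nontrivial (LinearMap.ker Ψ) := Submodule.nontrivial_iff_ne_bot.mpr hne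
    let R : Δ →* AddMonoid.End (LinearMap.ker Ψ) :=
      { toFun := fun u =>
          { toFun := fun x => ⟨Db u x.1, LinearMap.mem_ker.mpr (funext fun w => by
              show π (Db w (Db u x.1)) = 0
              have := congrFun (LinearMap.mem_ker.mp x.2) (w * u)
              have e : Db (w * u) x.1 = Db w (Db u x.1) :=
                DFunLike.congr_fun (map_mul Dh w u) x.1
              rwa [show Ψ x.1 (w * u) = π (Db (w * u) x.1) from rfl, e] at this)⟩
            map_zero' := Subtype.ext (map_zero (Db u))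
            map_add' := fun x y => Subtype.ext (map_add (Db u) _ _) }
        map_one' := AddMonoidHom.ext fun x => Subtype.ext (DFunLike.congr_fun (map_one Dh) x.1)
        map_mul' := fun u u' => AddMonoidHom.ext fun x =>
          Subtype.ext (DFunLike.congr_fun (map_mul Dh u u') x.1) }
    obtain ⟨⟨x, hx⟩, hx0, hfix⟩ := exists_fixed_ne_zero (p := p) hΔ (fun x => Subtype.ext (by
      show p • x.1 = 0
      rw [← Nat.cast_smul_eq_nsmul (O ⧸ maximalIdeal O), show ((p : ℕ) : (O ⧸ maximalIdeal O)) = Ideal.Quotient.mk _ (p : O) by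
        rw [map_natCast], Ideal.Quotient.eq_zero_iff_mem.mpr hp, zero_smul])) R
    have hxV : x ∈ V := (hV x).mpr fun u => congrArg Subtype.val (hfix u)
    refine hx0 (Subtype.ext ?_)
    have h1 := congrFun (LinearMap.mem_ker.mp hx) 1
    have e : Db 1 x = x := DFunLike.congr_fun (map_one Dh) x
    rw [show Ψ x 1 = π (Db 1 x) from rfl, e,
      show x = V.subtype ⟨x, hxV⟩ from rfl, ← LinearMap.comp_apply, hπ] at h1
    show x = 0
    simpa using congrArg Subtype.val h1
  have hsurjb : Function.Surjective Φb := by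
    have h1 := LinearMap.finrank_le_finrank_of_injective hΨ
    have h2 := LinearMap.finrank_range_of_inj hinj
    rw [Module.finrank_pi_fintype] at h1
    rw [Module.finrank_pi_fintype] at h2
    simp only [Finset.sum_const, Finset.card_univ, smul_eq_mul, Fintype.card_fin,
      Module.finrank_fintype_fun_eq_card] at h1 h2
    rw [← LinearMap.range_eq_top]
    refine Submodule.eq_top_of_finrank_eq (le_antisymm (Submodule.finrank_le _) ?_)
    rw [h2]
    exact h1.trans (le_of_eq (mul_comm _ _))
  have hsurj : Function.Surjective Φ := by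
    rw [← LinearMap.range_eq_top]
    refine eq_top_iff.mpr (Submodule.le_of_le_smul_of_le_jacobson_bot Module.Finite.fg_top
      (maximalIdeal_le_jacobson _) fun x _ => ?_)
    obtain ⟨f, hf⟩ := hsurjb (Submodule.Quotient.mk x)
    choose g hg using fun i u => Ideal.Quotient.mk_surjective (f i u)
    rw [show f = fun i u => Ideal.Quotient.mk _ (g i u) from
      funext fun i => funext fun u => (hg i u).symm, hΦb] at hf
    refine Submodule.mem_sup.mpr ⟨Φ g, ⟨g, rfl⟩, x - Φ g, ?_, by abel⟩
    exact (Submodule.Quotient.eq P).mp hf.symm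
  refine ⟨?_, hsurj⟩
  obtain ⟨π, hπ⟩ := IsDiscreteValuationRing.exists_irreducible O
  have hπmem : maximalIdeal O = Ideal.span {π} := hπ.maximalIdeal_eq
  rw [← LinearMap.ker_eq_bot]
  refine Submodule.eq_bot_of_le_smul_of_le_jacobson_bot (maximalIdeal O) _
    (IsNoetherian.noetherian _) ?_ (maximalIdeal_le_jacobson _)
  intro f hf
  have h1 : Φb (fun i u => Ideal.Quotient.mk _ (f i u)) = Φb 0 := by
    rw [hΦb, LinearMap.mem_ker.mp hf, map_zero]; rfl
  have h2 : ∀ i u, f i u ∈ maximalIdeal O := fun i u =>
    Ideal.Quotient.eq_zero_iff_mem.mp (congrFun (congrFun (hinj h1) i) u)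
  choose g hg using fun i u => Ideal.mem_span_singleton.mp (hπmem ▸ h2 i u)
  have hfg : f = π • g := funext fun i => funext fun u => hg i u
  rw [hfg]
  refine Submodule.smul_mem_smul (hπmem ▸ Ideal.mem_span_singleton_self π) ?_
  rw [LinearMap.mem_ker, hfg, map_smul] at hf
  exact LinearMap.mem_ker.mpr ((smul_eq_zero.mp hf).resolve_left hπ.ne_zero)

/-- The invariants of a free module are spanned freely by the norms of a basis. -/
theorem exists_invariants_equiv {n : ℕ} {b : Fin n → M} (hb : Function.Bijective (groupSum D b)) :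
    ∃ V : Submodule O M, (∀ x, x ∈ V ↔ ∀ u, D u x = x) ∧ Nonempty (V ≃ₗ[O] (Fin n → O)) := by
  let Φ := LinearEquiv.ofBijective (groupSum D b) hb
  let V : Submodule O M := ⨅ u, LinearMap.ker (D u - 1)
  have hV : ∀ x, x ∈ V ↔ ∀ u, D u x = x := fun x => by simp [V, sub_eq_zero]
  let j : (Fin n → O) →ₗ[O] M := (groupSum D b) ∘ₗ
    { toFun := fun c i _ => c i
      map_add' := fun _ _ => rfl
      map_smul' := fun _ _ => rfl }
  have hj : ∀ c, j c ∈ V := fun c => (hV _).mpr fun u => by
    show D u (groupSum D b _) = groupSum D b _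
    rw [apply_groupSum]; rfl
  refine ⟨V, hV, ⟨(LinearEquiv.ofBijective (j.codRestrict V hj) ⟨fun c c' e => ?_,
    fun x => ?_⟩).symm⟩⟩
  · have := hb.1 (congrArg Subtype.val e : groupSum D b _ = groupSum D b _)
    exact funext fun i => congrFun (congrFun this i) 1
  · obtain ⟨f, hf⟩ := hb.2 x.1
    refine ⟨fun i => f i 1, Subtype.ext (Eq.trans ?_ hf)⟩
    show groupSum D b (fun i _ => f i 1) = groupSum D b f
    congr 1
    funext i u
    have h1 := (hV _).mp x.2 u
    rw [← hf, apply_groupSum] at h1
    have := congrFun (congrFun (hb.1 h1) i) u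
    simpa using this

end Fermat.Agent.Auto
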