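/-
Auto A1: the localised part of the homomorphisms out of `grp M c` is parabolic, satisfies the norm
criterion over the diamonds, and its invariants are the localised part at level `Γ₀(M)`.
-/
import Fermat.Agent.Auto.Free.Ops
import Fermat.Agent.Auto.Free.Eisenstein
import Fermat.Agent.Auto.Free.Fitting
import Fermat.Agent.Auto.Free.GroupRing

set_option autoImplicit false
set_option linter.unusedSectionVars false
set_option linter.style.haveILetI false

noncomputable section

namespace Fermat.Agent.Auto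

open IsLocalRing CongruenceSubgroup
open Fermat.Agent.GalRep (GoodPrime GoodIndex)
open scoped MatrixGroups

section General

variable {O : Type} [CommRing O] [IsLocalRing O] [IsNoetherianRing O]
  [IsAdicComplete (maximalIdeal O) O] [Finite (ResidueField O)] {L : Type} [AddCommGroup L]
  [Module O L] [Module.Finite O L] {ι : Type} {T : ι → Module.End O L} {a : ι → O}
  (hT : ∀ i j, Commute (T i) (T j))

include hT in
/-- The part is preserved by the operators. -/
theorem op_mem_locPart (i : ι) (r : O) {x : L} (hx : x ∈ locPart T a) :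
    (T i - algebraMap O (Module.End O L) r) x ∈ locPart T a :=
  map_locPart_le _ (fun j => (hT i j).sub_left (Algebra.commute_algebraMap_left _ _)) hx

/-- An operator whose residual eigenvalue is not `r` is bijective, minus `r`, on the part. -/
theorem bijective_restrict_locPart (i : ι) {r : O} (hr : IsUnit (a i - r)) :
    Function.Bijective ((T i - algebraMap O (Module.End O L) r).restrict
      fun x hx => op_mem_locPart hT i r (a := a) (x := x) hx) := by
  haveI : Module.Finite O (locPart T a) := Module.IsNoetherian.finite O _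
  set u := (T i - algebraMap O (Module.End O L) r).restrict
    fun x hx => op_mem_locPart hT i r (a := a) (x := x) hx
  suffices hs : Function.Surjective u from
    ⟨OrzechProperty.injective_of_surjective_endomorphism u hs, hs⟩
  obtain ⟨e, he⟩ := hr
  let f : Module.End O (locPart T a) := (shiftOp T a i).restrict
    fun x hx => op_mem_locPart hT i (a i) hx
  set W := LinearMap.range u ⊔ maximalIdeal O • (⊤ : Submodule O (locPart T a))
  have hu : ∀ x, u x = f x + (e : O) • x := fun x => Subtype.ext (by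
    show T i x.1 - r • x.1 = (T i x.1 - a i • x.1) + (e : O) • x.1
    rw [he, sub_smul]; abel)
  have key : ∀ (j : ℕ) (x : locPart T a),
      (f ^ j) x ∈ maximalIdeal O • (⊤ : Submodule O (locPart T a)) → x ∈ W := by
    intro j
    induction j with
    | zero => exact fun x hx => Submodule.mem_sup_right hx
    | succ j ih =>
      intro x hx
      rw [pow_succ, Module.End.mul_apply] at hx
      have h2 : (e : O) • x ∈ W := by
        rw [show (e : O) • x = u x - f x by rw [hu]; abel]
        exact sub_mem (Submodule.mem_sup_left ⟨x, rfl⟩) (ih _ hx)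
      have := W.smul_mem (↑e⁻¹ : O) h2
      rwa [smul_smul, Units.inv_mul, one_smul] at this
  rw [← LinearMap.range_eq_top]
  refine eq_top_iff.mpr (Submodule.le_of_le_smul_of_le_jacobson_bot Module.Finite.fg_top
    (maximalIdeal_le_jacobson _) fun x _ => ?_)
  obtain ⟨j, hj⟩ := (mem_locPart.mp x.2) i 1
  refine key j x ?_
  have hpow : ∀ (j : ℕ) (y : locPart T a), (((f ^ j) y : locPart T a) : L) =
      (shiftOp T a i ^ j) y.1 := fun j => by
    induction j with
    | zero => intro y; rfl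
    | succ j ih => intro y; rw [pow_succ, pow_succ, Module.End.mul_apply, Module.End.mul_apply, ih]; rfl
  have h1 : ((locProj a hT).codRestrict (locPart T a) (locProj_mem a hT)) ((shiftOp T a i ^ j) x.1) ∈
      maximalIdeal O • (⊤ : Submodule O (locPart T a)) := by
    rw [← mPow_one]
    exact map_mem_mPow _ (hj j le_rfl)
  convert h1 using 1
  refine Subtype.ext ?_
  rw [LinearMap.codRestrict_apply, locProj_apply_of_mem a hT (hpow j x ▸ ((f ^ j) x).2), hpow]

end General

variable {p : ℕ} [Fact p.Prime] {O : Type} [CommRing O] [IsDomain O] [IsDiscreteValuationRing O]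
  [IsAdicComplete (maximalIdeal O) O] [Finite (ResidueField O)] [CharZero O]
  {M : ℕ} [NeZero M] {Δ : Type} [CommGroup Δ] [Fintype Δ] {c : (ZMod M)ˣ →* Δ}
  {S : Finset ℕ} {a : ℕ → O}

/-- The operators on all homomorphisms. -/
abbrev hT' (M : ℕ) [NeZero M] {Δ : Type} [CommGroup Δ] (c : (ZMod M)ˣ →* Δ) (O : Type)
    [CommRing O] (S : Finset ℕ) (i : PrimeOff M S) : Module.End O (Additive (grp M c) →+ O) :=
  homT c O O i.1

/-- The localised part of all homomorphisms. -/
abbrev homLoc (M : ℕ) [NeZero M] {Δ : Type} [CommGroup Δ] (c : (ZMod M)ˣ →* Δ) (O : Type)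
    [CommRing O] [IsLocalRing O] (S : Finset ℕ) (a : ℕ → O) : Submodule O (Additive (grp M c) →+ O) :=
  locPart (hT' M c O S) fun i => a ((i.1 : Nat.Primes) : ℕ)

theorem hT'_commute (i j : PrimeOff M S) : Commute (hT' M c O S i) (hT' M c O S j) :=
  homT_commute O O i.1 j.1

theorem isUnit_natCast (hp : (p : O) ∈ maximalIdeal O) {n : ℕ} (h : ¬ p ∣ n) : IsUnit (n : O) := by
  by_contra hu
  obtain ⟨x, y, hxy⟩ := Nat.isCoprime_iff_coprime.mpr
    ((Fact.out : p.Prime).coprime_iff_not_dvd.mpr h)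
  have h1 : ((x * p + y * n : ℤ) : O) ∈ maximalIdeal O := by
    push_cast
    exact add_mem (Ideal.mul_mem_left _ _ hp) (Ideal.mul_mem_left _ _ ((mem_maximalIdeal _).mpr hu))
  rw [hxy, Int.cast_one] at h1
  exact (maximalIdeal.isMaximal O).ne_top ((Ideal.eq_top_iff_one _).mpr h1)

theorem map_mem_smul_top {L L' : Type} [AddCommGroup L] [Module O L] [AddCommGroup L'] [Module O L']
    (g : L →ₗ[O] L') {x : L} (hx : x ∈ maximalIdeal O • (⊤ : Submodule O L)) :
    g x ∈ maximalIdeal O • (⊤ : Submodule O L') :=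
  (Submodule.map_le_iff_le_comap.mp (le_of_eq_of_le (Submodule.map_smul'' _ _ _)
    (Submodule.smul_mono le_rfl le_top))) hx

theorem coe_mem_smul_top {L : Type} [AddCommGroup L] [Module O L] (N : Submodule O L) {x : N}
    (hx : x ∈ maximalIdeal O • (⊤ : Submodule O N)) :
    (x : L) ∈ maximalIdeal O • (⊤ : Submodule O L) :=
  map_mem_smul_top N.subtype hx

theorem bijective_nsmul {n : ℕ} (hn : IsUnit (n : O)) {A : Type} [AddCommGroup A] [Module O A] :
    Function.Bijective fun x : A => n • x := by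
  obtain ⟨e, he⟩ := hn
  have : (fun x : A => n • x) = fun x => (e : O) • x := funext fun x => by
    rw [he, Nat.cast_smul_eq_nsmul]
  rw [this]
  exact MulAction.bijective e

/-- An auxiliary prime `≡ 1 (mod M p)` with non-Eisenstein eigenvalue. -/
theorem exists_eis_prime (hp : (p : O) ∈ maximalIdeal O) (hMS : ∀ r : ℕ, r.Prime → r ∣ M → r ∈ S)
    (hne : NonEis S a) : ∃ i : PrimeOff M S, (M : ℤ) ∣ (((i.1 : Nat.Primes) : ℕ) : ℤ) - 1 ∧
      IsUnit ((((i.1 : Nat.Primes) : ℕ) : O)) ∧
      IsUnit (a ((i.1 : Nat.Primes) : ℕ) - ((((i.1 : Nat.Primes) : ℕ) : O) + 1)) := by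
  have hpp : p.Prime := Fact.out
  obtain ⟨ℓ, hℓ, hℓS, hmod, hu⟩ := hne (M * p) (Nat.mul_pos (NeZero.pos M) hpp.pos)
  have hdvd : ((M * p : ℕ) : ℤ) ∣ (ℓ : ℤ) - 1 := by
    have := (Nat.modEq_iff_dvd' hℓ.one_le).mp hmod.symm
    have h' := Int.natCast_dvd_natCast.mpr this
    rwa [Nat.cast_sub hℓ.one_le, Nat.cast_one] at h'
  push_cast at hdvd
  refine ⟨⟨⟨⟨ℓ, hℓ⟩, fun h => hℓS (hMS ℓ hℓ h)⟩, hℓS⟩, (dvd_mul_right _ _).trans hdvd,
    isUnit_natCast hp fun h => ?_, hu⟩
  obtain rfl := (Nat.prime_dvd_prime_iff_eq hpp hℓ).mp h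
  have h1 := (dvd_sub_right (dvd_refl (p : ℤ))).mp ((dvd_mul_left (p : ℤ) (M : ℤ)).trans hdvd)
  exact hpp.not_dvd_one (Int.natCast_dvd_natCast.mp (by exact_mod_cast h1))

variable (hp5 : 5 ≤ p) (hp : (p : O) ∈ maximalIdeal O) (hΔ : IsPGroup p Δ)
  (hMS : ∀ r : ℕ, r.Prime → r ∣ M → r ∈ S) (hne : NonEis S a)

include hp5 hp in
theorem isUnit_two : IsUnit ((2 : ℕ) : O) :=
  isUnit_natCast hp fun h => by have := Nat.le_of_dvd two_pos h; omega

include hp5 hp in
theorem isUnit_three : IsUnit ((3 : ℕ) : O) :=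
  isUnit_natCast hp fun h => by have := Nat.le_of_dvd three_pos h; omega

include hp5 hp hMS hne in
/-- The localised part is parabolic. -/
theorem homLoc_le_parabolic :
    homLoc M c O S a ≤ ModularCurve.Period.parabolicHoms O (grp M c) O := by
  intro x hx
  obtain ⟨i, hi1, hiu, hiE⟩ := exists_eis_prime hp hMS hne
  obtain ⟨y, hy⟩ := (bijective_restrict_locPart hT'_commute i hiE).2 ⟨x, hx⟩
  rw [← show ((hT' M c O S i - algebraMap O _ ((((i.1 : Nat.Primes) : ℕ) : O) + 1)) y.1) = x from
    congrArg Subtype.val hy, LinearMap.sub_apply, Module.algebraMap_end_apply,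
    ← Nat.cast_add_one, Nat.cast_smul_eq_nsmul]
  exact transfer_sub_mem_parabolic (K := O) ⟨i.1.1.2, i.1.2⟩ hi1 (gpDia i.1)
    (bijective_nsmul (isUnit_two hp5 hp)).1 (bijective_nsmul hiu).1 y.1

theorem coe_latT (ℓ : GoodPrime M) (v : Lat M c O) :
    ((latT M c O ℓ v : Lat M c O) : Additive (grp M c) →+ O) = homT c O O ℓ v.1 := rfl

include hp5 hp hMS hne in
theorem mem_latLoc_iff (v : Lat M c O) :
    v ∈ latLoc M c O S a ↔ (v : Additive (grp M c) →+ O) ∈ homLoc M c O S a := by
  refine ⟨fun h => map_mem_locPart (T := fun i : PrimeOff M S => latT M c O i.1)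
    (T' := hT' M c O S) (ModularCurve.Period.parabolicHoms O (grp M c) O).subtype
    (fun i y => coe_latT i.1 y) h, fun h i k => ?_⟩
  obtain ⟨j, hj⟩ := h i k
  refine ⟨j, fun j' hj' => ?_⟩
  obtain ⟨π, hπ⟩ := IsDiscreteValuationRing.exists_irreducible O
  have hk : maximalIdeal O ^ k = Ideal.span {π ^ k} := by
    rw [hπ.maximalIdeal_eq, Ideal.span_singleton_pow]
  set fL : Module.End O (Lat M c O) :=
    latT M c O i.1 - algebraMap O _ (a ((i.1 : Nat.Primes) : ℕ)) with hfL
  set fH : Module.End O (Additive (grp M c) →+ O) :=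
    hT' M c O S i - algebraMap O _ (a ((i.1 : Nat.Primes) : ℕ)) with hfH
  have hpow : ∀ (n : ℕ) (w : Lat M c O),
      (((fL ^ n) w : Lat M c O) : Additive (grp M c) →+ O) = (fH ^ n) w.1 := fun n => by
    induction n with
    | zero => intro w; rfl
    | succ n ih =>
      intro w
      rw [pow_succ, pow_succ, Module.End.mul_apply, Module.End.mul_apply, ih]
      rfl
  have h1 := hj j' hj'
  rw [← hpow j' v, hk, Submodule.ideal_span_singleton_smul, Submodule.mem_smul_pointwise_iff_exists]
    at h1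
  obtain ⟨y, -, hy⟩ := h1
  have hpar : y ∈ ModularCurve.Period.parabolicHoms O (grp M c) O := fun γ hγ => by
    have h2 : π ^ k * y (Additive.ofMul γ) = 0 :=
      (DFunLike.congr_fun hy (Additive.ofMul γ)).trans (((fL ^ j') v).2 γ hγ)
    exact (mul_eq_zero.mp h2).resolve_left (pow_ne_zero _ hπ.ne_zero)
  rw [hk, Submodule.ideal_span_singleton_smul, Submodule.mem_smul_pointwise_iff_exists]
  exact ⟨⟨y, hpar⟩, trivial, Subtype.ext hy⟩

include hp5 hp hMS hne in
/-- The localised lattice is the localised part of all homomorphisms. -/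
theorem exists_latLoc_equiv : ∃ e : latLoc M c O S a ≃ₗ[O] homLoc M c O S a,
    ∀ v, ((e v : homLoc M c O S a) : Additive (grp M c) →+ O) = v.1.1 := by
  let j : latLoc M c O S a →ₗ[O] homLoc M c O S a :=
    ((ModularCurve.Period.parabolicHoms O (grp M c) O).subtype ∘ₗ
      (latLoc M c O S a).subtype).codRestrict _
      fun v => (mem_latLoc_iff hp5 hp hMS hne v.1).mp v.2
  refine ⟨LinearEquiv.ofBijective j ⟨fun v w h => Subtype.ext (Subtype.ext
    (congrArg Subtype.val h : _)), fun x => ?_⟩, fun v => rfl⟩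
  exact ⟨⟨⟨x.1, homLoc_le_parabolic hp5 hp hMS hne x.2⟩,
    (mem_latLoc_iff hp5 hp hMS hne _).mpr x.2⟩, rfl⟩

variable (hc : Function.Surjective c)

theorem dia_mem_homLoc (u : Δ) {x : Additive (grp M c) →+ O} (hx : x ∈ homLoc M c O S a) :
    (grpQuot hc).dia O u x ∈ homLoc M c O S a :=
  map_locPart_le (T := hT' M c O S) ((grpQuot hc).dia O u) (fun i => homT_dia hc i.1 u) hx

variable (S a) in
/-- The diamonds on the localised part. -/
def locDia : Δ →* Module.End O (homLoc M c O S a) where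
  toFun u := ((grpQuot hc).dia O u).restrict fun x hx => dia_mem_homLoc hc u hx
  map_one' := LinearMap.ext fun x => Subtype.ext (by
    show (grpQuot hc).dia O 1 x.1 = x.1
    rw [map_one]; rfl)
  map_mul' u v := LinearMap.ext fun x => Subtype.ext (by
    show (grpQuot hc).dia O (u * v) x.1 = (grpQuot hc).dia O u ((grpQuot hc).dia O v x.1)
    rw [map_mul]; rfl)

theorem coe_locDia (u : Δ) (x : homLoc M c O S a) :
    ((locDia S a hc u x : homLoc M c O S a) : Additive (grp M c) →+ O) =
      (grpQuot hc).dia O u x.1 := rfl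

/-- Homomorphisms vanishing modulo the maximal ideal. -/
theorem mem_smul_top_of_residue (x : Additive (grp M c) →+ O)
    (hx : ∀ γ, residue O (x γ) = 0) :
    x ∈ maximalIdeal O • (⊤ : Submodule O (Additive (grp M c) →+ O)) := by
  obtain ⟨π, hπ⟩ := IsDiscreteValuationRing.exists_irreducible O
  have h : ∀ γ, ∃ z, π * z = x γ := fun γ => by
    have := (residue_eq_zero_iff _).mp (hx γ)
    rw [hπ.maximalIdeal_eq, Ideal.mem_span_singleton] at this
    exact ⟨this.choose, this.choose_spec.symm⟩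
  choose z hz using h
  let y : Additive (grp M c) →+ O := AddMonoidHom.mk' z fun γ δ =>
    mul_left_cancel₀ hπ.ne_zero (by rw [mul_add, hz, hz, hz, map_add])
  rw [show x = π • y from AddMonoidHom.ext fun γ => (hz γ).symm]
  exact Submodule.smul_mem_smul (hπ.maximalIdeal_eq ▸ Ideal.mem_span_singleton_self π) trivial

include hp5 hp hΔ hMS hne in
/-- Invariant vectors of the localised part are norms modulo the maximal ideal. -/
theorem norm_criterion (x : homLoc M c O S a)
    (hx : ∀ u, locDia S a hc u x - x ∈ maximalIdeal O • (⊤ : Submodule O _)) :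
    ∃ y, x - ∑ u, locDia S a hc u y ∈ maximalIdeal O • (⊤ : Submodule O (homLoc M c O S a)) := by
  classical
  set k := ResidueField O
  set P := grpQuot (M := M) hc
  obtain ⟨i, -, -, hiE⟩ := exists_eis_prime hp hMS hne
  set ℓ : ℕ := ((i.1 : Nat.Primes) : ℕ)
  let ρ : O →+ k := (residue O).toAddMonoidHom
  set f : Additive (grp M c) →+ k := ρ.comp x.1
  have hres : ∀ w : Additive (grp M c) →+ O,
      w ∈ maximalIdeal O • (⊤ : Submodule O (Additive (grp M c) →+ O)) → ρ.comp w = 0 := fun w hw => by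
    refine Submodule.smul_induction_on hw (fun r hr y _ => AddMonoidHom.ext fun γ => ?_)
      (fun v w hv hw => by rw [AddMonoidHom.comp_add, hv, hw, add_zero])
    show residue O (r * y γ) = 0
    rw [map_mul, (residue_eq_zero_iff _).mpr hr, zero_mul]
  have hsub : ∀ w : homLoc M c O S a, w ∈ maximalIdeal O • (⊤ : Submodule O _) →
      w.1 ∈ maximalIdeal O • (⊤ : Submodule O (Additive (grp M c) →+ O)) := fun w hw =>
    coe_mem_smul_top _ hw
  have hf : ∀ u, P.dia O u f = f := fun u => by
    have h1 := hres _ (hsub _ (hx u))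
    rw [Submodule.coe_sub, AddMonoidHom.comp_sub] at h1
    exact sub_eq_zero.mp h1
  obtain ⟨φb, hφb⟩ := exists_res_homT_sub (R := O) hc i.1 f hf
  have h2 := bijective_nsmul (A := O) (isUnit_two hp5 hp)
  have h3 := bijective_nsmul (A := O) (isUnit_three hp5 hp)
  have hneg : ∀ c' : (ZMod M)ˣ →* Δ, (-1 : SL(2, ℤ)) ∈ grp M c' := fun c' =>
    neg_one_mem_grp (by omega) hΔ
  obtain ⟨φ, hφ⟩ := exists_lift_hom _ (hneg 1) ρ residue_surjective h2 h3
    (bijective_nsmul (A := k) (isUnit_two hp5 hp)).1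
    (bijective_nsmul (A := k) (isUnit_three hp5 hp)).1 φb
  obtain ⟨χ, hχ⟩ := P.exists_norm_eq O (hneg c) h2 h3 φ
  set TT := hT' M c O S i
  set z := (TT x.1 - (ℓ + 1) • x.1) - ∑ u, P.dia O u χ with hz
  have hzmem : z ∈ maximalIdeal O • (⊤ : Submodule O (Additive (grp M c) →+ O)) := by
    refine mem_smul_top_of_residue z fun γ => ?_
    have e1 : ρ.comp (∑ u, P.dia O u χ) = homT c O k i.1 f - (ℓ + 1) • f := by
      rw [hχ, ← hφb, ← hφ]; rfl
    rw [homT_comp] at e1
    have e2 := DFunLike.congr_fun e1 γ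
    simp only [AddMonoidHom.comp_apply, AddMonoidHom.sub_apply, AddMonoidHom.smul_apply, f] at e2
    show ρ (z γ) = 0
    simp only [z, AddMonoidHom.sub_apply, AddMonoidHom.smul_apply, map_sub, map_nsmul]
    rw [e2, sub_self]
  set E := locProj (L := Additive (grp M c) →+ O) (fun i : PrimeOff M S => a ((i.1 : Nat.Primes) : ℕ))
    (T := hT' M c O S) hT'_commute
  let E' := E.codRestrict (homLoc M c O S a) (locProj_mem _ hT'_commute)
  have hbij := bijective_restrict_locPart (a := fun i : PrimeOff M S => a ((i.1 : Nat.Primes) : ℕ))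
    (T := hT' M c O S) hT'_commute i hiE
  set U := LinearEquiv.ofBijective _ hbij
  obtain ⟨y, hy⟩ := U.surjective (E' χ)
  refine ⟨y, ?_⟩
  have hU : ∀ w : homLoc M c O S a, ((U w : homLoc M c O S a) : Additive (grp M c) →+ O) =
      TT w.1 - (ℓ + 1) • w.1 := fun w => by
    show (TT - algebraMap O _ ((ℓ : O) + 1)) w.1 = _
    rw [LinearMap.sub_apply, Module.algebraMap_end_apply, ← Nat.cast_add_one, Nat.cast_smul_eq_nsmul]
  have hUd : ∀ u w, U (locDia S a hc u w) = locDia S a hc u (U w) := fun u w => Subtype.ext (by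
    rw [hU, coe_locDia, coe_locDia, hU, map_sub, map_nsmul]
    congr 1
    exact (LinearMap.congr_fun (homT_dia hc i.1 u).eq w.1).symm)
  have key : U (x - ∑ u, locDia S a hc u y) = E' z := by
    rw [map_sub U, map_sum U, Finset.sum_congr rfl fun u _ => hUd u y, hy]
    refine Subtype.ext ?_
    rw [Submodule.coe_sub, hU, Submodule.coe_sum]
    show _ = E z
    simp only [coe_locDia, E', LinearMap.codRestrict_apply]
    rw [hz, map_sub, map_sum]
    congr 1
    · have hx1 : E x.1 = x.1 := locProj_apply_of_mem _ hT'_commute x.2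
      have hx2 : E (TT x.1) = TT x.1 := locProj_apply_of_mem _ hT'_commute
        (map_locPart_le TT (fun j => hT'_commute i j) x.2)
      rw [map_sub, map_nsmul, hx1, hx2]
    · exact Finset.sum_congr rfl fun u _ =>
        LinearMap.congr_fun (commute_locProj _ hT'_commute fun j => homT_dia hc j.1 u).eq χ
  have h4 : x - ∑ u, locDia S a hc u y = U.symm.toLinearMap (E' z) :=
    (U.symm_apply_apply _).symm.trans (congrArg U.symm key)
  rw [h4]
  have h5 : E' z ∈ maximalIdeal O • (⊤ : Submodule O (homLoc M c O S a)) :=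
    map_mem_smul_top (L := Additive (grp M c) →+ O) (L' := ↥(homLoc M c O S a)) E' hzmem
  exact map_mem_smul_top (L := ↥(homLoc M c O S a)) (L' := ↥(homLoc M c O S a)) U.symm.toLinearMap h5

include hp hMS hne in
/-- The invariants of the localised part are the localised part at level `Γ₀(M)`. -/
theorem exists_invariants_iso (V : Submodule O (homLoc M c O S a))
    (hV : ∀ x, x ∈ V ↔ ∀ u, locDia S a hc u x = x) :
    Nonempty (homLoc M (1 : (ZMod M)ˣ →* Δ) O S a ≃ₗ[O] V) := by
  classical
  set P := grpQuot (M := M) hc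
  have hmem : ∀ x : homLoc M (1 : (ZMod M)ˣ →* Δ) O S a, P.res O x.1 ∈ homLoc M c O S a := fun x =>
    map_mem_locPart (P.res O) (fun i w => res_homT hc i.1 w) x.2
  let j : homLoc M (1 : (ZMod M)ˣ →* Δ) O S a →ₗ[O] V :=
    (((P.res O) ∘ₗ (homLoc M (1 : (ZMod M)ˣ →* Δ) O S a).subtype).codRestrict _ hmem).codRestrict V
      fun x => (hV _).mpr fun u => Subtype.ext (P.dia_res O u x.1)
  have hinj : Function.Injective (P.res (A := O) O) := by
    intro f g h
    refine AddMonoidHom.ext fun x => ?_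
    obtain ⟨γ, rfl⟩ := Additive.ofMul.surjective x
    have hmemG : ((γ ^ Fintype.card Δ : grp M (1 : (ZMod M)ˣ →* Δ)) : SL(2, ℤ)) ∈ grp M c :=
      (P.ker_iff _).mp (by rw [map_pow, pow_card_eq_one])
    have h1 := DFunLike.congr_fun h (Additive.ofMul ⟨_, hmemG⟩)
    rw [P.res_apply, P.res_apply, show Subgroup.inclusion P.le ⟨_, hmemG⟩ =
      γ ^ Fintype.card Δ from Subtype.ext rfl, ofMul_pow, map_nsmul, map_nsmul] at h1
    exact smul_right_injective O Fintype.card_ne_zero h1
  refine ⟨LinearEquiv.ofBijective j ⟨fun x y h => Subtype.ext (hinj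
    (congrArg (fun v : V => (v.1 : Additive (grp M c) →+ O)) h)), fun x => ?_⟩⟩
  obtain ⟨i, -, -, hiE⟩ := exists_eis_prime hp hMS hne
  obtain ⟨φ, hφ⟩ := exists_res_homT_sub (R := O) hc i.1 x.1.1
    (fun u => congrArg Subtype.val ((hV _).mp x.2 u))
  have hloc : homT c O O i.1 x.1.1 - (((i.1 : Nat.Primes) : ℕ) + 1) • x.1.1 ∈ homLoc M c O S a :=
    sub_mem (map_locPart_le _ (fun j => hT'_commute i j) x.1.2) (nsmul_mem x.1.2 _)
  obtain ⟨φ₂, hφ₂⟩ := (bijective_restrict_locPart
    (a := fun i : PrimeOff M S => a ((i.1 : Nat.Primes) : ℕ))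
    (T := hT' M (1 : (ZMod M)ˣ →* Δ) O S) hT'_commute i hiE).2
    ⟨_, locProj_mem _ hT'_commute φ⟩
  refine ⟨φ₂, Subtype.ext ((bijective_restrict_locPart
    (a := fun i : PrimeOff M S => a ((i.1 : Nat.Primes) : ℕ)) (T := hT' M c O S) hT'_commute i
      hiE).1 (Subtype.ext ?_))⟩
  have e3 : P.res O (locProj (fun j : PrimeOff M S => a ((j.1 : Nat.Primes) : ℕ))
      (T := hT' M (1 : (ZMod M)ˣ →* Δ) O S) hT'_commute φ) =
      homT c O O i.1 x.1.1 - (((i.1 : Nat.Primes) : ℕ) + 1) • x.1.1 :=
    (locProj_natural _ hT'_commute (hT'_commute (c := c)) (P.res O)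
      (fun i w => res_homT hc i.1 w) φ).trans (by
        rw [hφ]; exact locProj_apply_of_mem _ _ hloc)
  have e2 : (hT' M (1 : (ZMod M)ˣ →* Δ) O S i -
      algebraMap O _ ((((i.1 : Nat.Primes) : ℕ) : O) + 1)) φ₂.1 =
      locProj (fun j : PrimeOff M S => a ((j.1 : Nat.Primes) : ℕ))
        (T := hT' M (1 : (ZMod M)ˣ →* Δ) O S) hT'_commute φ := congrArg Subtype.val hφ₂
  have e4 : ∀ w, (hT' M c O S i - algebraMap O _ ((((i.1 : Nat.Primes) : ℕ) : O) + 1)) (P.res O w) =
      P.res O ((hT' M (1 : (ZMod M)ˣ →* Δ) O S i -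
        algebraMap O _ ((((i.1 : Nat.Primes) : ℕ) : O) + 1)) w) := fun w => by
    rw [LinearMap.sub_apply, LinearMap.sub_apply, Module.algebraMap_end_apply,
      Module.algebraMap_end_apply, map_sub, map_smul, res_homT hc i.1 w]
  show (hT' M c O S i - algebraMap O _ ((((i.1 : Nat.Primes) : ℕ) : O) + 1)) (P.res O φ₂.1) =
    (hT' M c O S i - algebraMap O _ ((((i.1 : Nat.Primes) : ℕ) : O) + 1)) x.1.1
  rw [e4, e2, e3, LinearMap.sub_apply, Module.algebraMap_end_apply, ← Nat.cast_add_one,
    Nat.cast_smul_eq_nsmul]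

end Fermat.Agent.Auto
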